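/-
JAC brick R2a (shared wiring): the fibre of a module at an `A`-point.

For an `A`-algebra `R`, an `A`-point `f : R →ₐ[A] A` and an `R`-module `N`:
`A ⊗[R] N ≃ₗ[A] N ⧸ (ker f) N`, where `A` is an `R`-algebra through `f`.
-/
import Mathlib

set_option autoImplicit false
set_option linter.style.haveILetI false

open TensorProduct

namespace Fermat.Agent.Jac.Chart43

section FibreAt

variable {A R N : Type*} [CommRing A] [CommRing R] [Algebra A R] [AddCommGroup N] [Module R N]
  [Module A N] [IsScalarTower A R N]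

/-- the fibre `A ⊗[R] N` of `N` at the `A`-point `f` is `N ⧸ (ker f) N`. -/
theorem nonempty_fibre_equiv (f : R →ₐ[A] A) :
    letI : Algebra R A := f.toRingHom.toAlgebra
    Nonempty ((A ⊗[R] N) ≃ₗ[A] (N ⧸ (RingHom.ker f.toRingHom • ⊤ : Submodule R N))) := by
  letI alg : Algebra R A := f.toRingHom.toAlgebra
  have hf : ∀ a : A, f (algebraMap A R a) = a := fun a => by
    rw [f.commutes]
    rfl
  have hsmul : ∀ (r : R) (a : A), r • a = f r * a := fun _ _ => rfl
  have hI : ∀ r : R, algebraMap A R (f r) - r ∈ RingHom.ker f.toRingHom := by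
    intro r
    rw [RingHom.mem_ker]
    show f (algebraMap A R (f r) - r) = 0
    rw [map_sub, hf, sub_self]
  -- the map `N ⧸ I N → A ⊗ N`
  let gR : (N ⧸ (RingHom.ker f.toRingHom • ⊤ : Submodule R N)) →ₗ[R] A ⊗[R] N :=
    Submodule.liftQ _ (TensorProduct.mk R A N 1) (by
      rw [Submodule.smul_le]
      intro r hr n _
      rw [LinearMap.mem_ker, TensorProduct.mk_apply, ← TensorProduct.smul_tmul, hsmul]
      have : f r = 0 := hr
      rw [this, zero_mul, TensorProduct.zero_tmul])
  have hgR : ∀ n : N, gR (Submodule.Quotient.mk n) = (1 : A) ⊗ₜ[R] n := fun n => rfl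
  -- a left inverse
  let ψ : A →ₗ[R] R ⧸ RingHom.ker f.toRingHom :=
    { toFun := fun a => Ideal.Quotient.mk _ (algebraMap A R a)
      map_add' := fun a b => by rw [map_add, map_add]
      map_smul' := fun r a => by
        rw [hsmul, map_mul, map_mul, RingHom.id_apply, Algebra.smul_def, Ideal.Quotient.algebraMap_eq,
          ← sub_eq_zero, ← sub_mul, ← map_sub, Ideal.Quotient.eq_zero_iff_mem.mpr (hI r),
          zero_mul] }
  let h : A ⊗[R] N →ₗ[R] (N ⧸ (RingHom.ker f.toRingHom • ⊤ : Submodule R N)) :=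
    (TensorProduct.quotTensorEquivQuotSMul N (RingHom.ker f.toRingHom)).toLinearMap ∘ₗ
      (ψ.rTensor N)
  have hh : ∀ y, h (gR y) = y := by
    intro y
    obtain ⟨n, rfl⟩ := Submodule.Quotient.mk_surjective _ y
    rw [hgR]
    show (TensorProduct.quotTensorEquivQuotSMul N (RingHom.ker f.toRingHom))
      ((ψ.rTensor N) ((1 : A) ⊗ₜ[R] n)) = _
    rw [LinearMap.rTensor_tmul]
    show (TensorProduct.quotTensorEquivQuotSMul N (RingHom.ker f.toRingHom))
      (Ideal.Quotient.mk _ (algebraMap A R 1) ⊗ₜ[R] n) = _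
    rw [TensorProduct.quotTensorEquivQuotSMul_mk_tmul, map_one, one_smul]
  have hinj : Function.Injective gR := Function.LeftInverse.injective hh
  have hone : ∀ (a : A) (n : N), a ⊗ₜ[R] n = gR (Submodule.Quotient.mk (a • n)) := by
    intro a n
    rw [hgR, ← algebraMap_smul R a n, ← TensorProduct.smul_tmul, hsmul, hf, mul_one]
  have hsurj : Function.Surjective gR := by
    intro z
    induction z using TensorProduct.induction_on with
    | zero => exact ⟨0, map_zero _⟩
    | tmul a n => exact ⟨_, (hone a n).symm⟩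
    | add z z' hz hz' =>
      obtain ⟨y, rfl⟩ := hz
      obtain ⟨y', rfl⟩ := hz'
      exact ⟨y + y', map_add _ _ _⟩
  let gA : (N ⧸ (RingHom.ker f.toRingHom • ⊤ : Submodule R N)) →ₗ[A] A ⊗[R] N :=
    { toFun := gR
      map_add' := gR.map_add
      map_smul' := fun a y => by
        obtain ⟨n, rfl⟩ := Submodule.Quotient.mk_surjective _ y
        rw [RingHom.id_apply, ← Submodule.Quotient.mk_smul, ← hone, hgR, TensorProduct.smul_tmul',
          smul_eq_mul, mul_one] }
  exact ⟨(LinearEquiv.ofBijective gA ⟨hinj, hsurj⟩).symm⟩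

end FibreAt

end Fermat.Agent.Jac.Chart43
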