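/-
JAC brick A4b (ChartDivisor), part 1: the content ideal (ideal of zeros) of an element of an
invertible module.  Pure commutative algebra (Mathlib only).

For an invertible `R`-module `N` and `x : N` with `r ↦ r • x` injective:
* `contentIdeal R x = {φ x | φ ∈ N^∨}` is an invertible ideal, isomorphic to `N^∨` (`dualEquivContent`);
* `contentIdeal R x • ⊤ = R ∙ x`, so `N ⧸ R x = N ⧸ I N`;
* the content ideal commutes with base change (`contentIdeal_baseChange`);
* if `N ⧸ I N` is a finite projective module over a base ring `A`, so is `R ⧸ I`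
  (`finite_projective_quotient`): `R ⧸ I` is an `R`-linear retract of a finite power of `N ⧸ I N`.
-/
import Mathlib

namespace Fermat.Agent.Jac.Chart43

open TensorProduct

section Content

variable {R : Type*} [CommRing R] {N : Type*} [AddCommGroup N] [Module R N]

/-- the content ideal of `x : N`: all values `φ x`, `φ ∈ N^∨`. -/
def contentIdeal (R : Type*) [CommRing R] {N : Type*} [AddCommGroup N] [Module R N] (x : N) :
    Ideal R := LinearMap.range (Module.Dual.eval R N x)

theorem mem_contentIdeal {x : N} {r : R} :
    r ∈ contentIdeal R x ↔ ∃ φ : Module.Dual R N, φ x = r := by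
  unfold contentIdeal
  rw [LinearMap.mem_range]
  rfl

theorem apply_mem_contentIdeal (φ : Module.Dual R N) (x : N) : φ x ∈ contentIdeal R x :=
  mem_contentIdeal.mpr ⟨φ, rfl⟩

theorem contentIdeal_smul_le (a : R) (x : N) : contentIdeal R (a • x) ≤ contentIdeal R x := by
  intro r hr
  obtain ⟨φ, rfl⟩ := mem_contentIdeal.mp hr
  rw [map_smul]
  exact Ideal.mul_mem_left _ _ (apply_mem_contentIdeal φ x)

theorem contentIdeal_unit_smul (a : Rˣ) (x : N) :
    contentIdeal R ((a : R) • x) = contentIdeal R x := by
  apply le_antisymm (contentIdeal_smul_le _ _)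
  have h := contentIdeal_smul_le ((a⁻¹ : Rˣ) : R) ((a : R) • x)
  rwa [smul_smul, Units.inv_mul, one_smul] at h

/-- the content ideal is invariant under isomorphisms. -/
theorem contentIdeal_equiv {N' : Type*} [AddCommGroup N'] [Module R N'] (e : N ≃ₗ[R] N') (x : N) :
    contentIdeal R (e x) = contentIdeal R x := by
  ext r
  rw [mem_contentIdeal, mem_contentIdeal]
  constructor
  · rintro ⟨φ, rfl⟩
    exact ⟨φ.comp e.toLinearMap, rfl⟩
  · rintro ⟨φ, rfl⟩
    exact ⟨φ.comp e.symm.toLinearMap, by simp⟩

variable [Module.Invertible R N]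

/-- in a module of rank one, `φ n • n' = φ n' • n`. -/
theorem dual_apply_smul_comm (φ : Module.Dual R N) (n n' : N) : φ n • n' = φ n' • n := by
  have h := congrArg (fun z => TensorProduct.lid R N (φ.rTensor N z))
    (Module.Invertible.tmul_comm (R := R) (m₁ := n) (m₂ := n'))
  simpa using h

/-- a decomposition of `1` through the evaluation pairing. -/
theorem exists_contractLeft_eq_one : ∃ z : Module.Dual R N ⊗[R] N, contractLeft R N z = 1 :=
  (Module.Invertible.bijective (R := R) (M := N)).2 1

/-- `R ∙ x ⊆ I N` for the content ideal `I` of `x`. -/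
theorem mem_contentIdeal_smul_top (x : N) : x ∈ contentIdeal R x • (⊤ : Submodule R N) := by
  have key : ∀ z : Module.Dual R N ⊗[R] N,
      contractLeft R N z • x ∈ contentIdeal R x • (⊤ : Submodule R N) := by
    intro z
    induction z using TensorProduct.induction_on with
    | zero => simp
    | tmul φ n =>
      rw [contractLeft_apply, dual_apply_smul_comm]
      exact Submodule.smul_mem_smul (apply_mem_contentIdeal φ x) Submodule.mem_top
    | add z z' hz hz' =>
      rw [map_add, add_smul]
      exact add_mem hz hz'
  obtain ⟨z, hz⟩ := exists_contractLeft_eq_one (R := R) (N := N)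
  have := key z
  rwa [hz, one_smul] at this

/-- `I N = R ∙ x` for the content ideal `I` of `x`. -/
theorem contentIdeal_smul_top (x : N) :
    contentIdeal R x • (⊤ : Submodule R N) = Submodule.span R {x} := by
  apply le_antisymm
  · rw [Submodule.smul_le]
    intro r hr n _
    obtain ⟨φ, rfl⟩ := mem_contentIdeal.mp hr
    rw [dual_apply_smul_comm]
    exact Submodule.smul_mem _ _ (Submodule.mem_span_singleton_self x)
  · rw [Submodule.span_le, Set.singleton_subset_iff]
    exact mem_contentIdeal_smul_top x

/-- evaluation at a regular element is injective on the dual. -/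
theorem eval_injective {x : N} (hx : Function.Injective fun r : R => r • x) :
    Function.Injective (Module.Dual.eval R N x) := by
  rw [← LinearMap.ker_eq_bot, LinearMap.ker_eq_bot']
  intro φ hφ
  have hφ' : φ x = 0 := hφ
  apply LinearMap.ext
  intro n
  apply hx
  show φ n • x = (0 : Module.Dual R N) n • x
  rw [dual_apply_smul_comm, hφ', zero_smul, LinearMap.zero_apply, zero_smul]

/-- the dual of `N` is isomorphic to the content ideal of a regular element. -/
noncomputable def dualEquivContent {x : N} (hx : Function.Injective fun r : R => r • x) :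
    Module.Dual R N ≃ₗ[R] contentIdeal R x :=
  LinearEquiv.ofInjective (Module.Dual.eval R N x) (eval_injective hx)

theorem dualEquivContent_apply {x : N} (hx : Function.Injective fun r : R => r • x)
    (φ : Module.Dual R N) : ((dualEquivContent hx φ : contentIdeal R x) : R) = φ x := rfl

/-- the content ideal of a regular element of an invertible module is an invertible ideal. -/
theorem invertible_contentIdeal {x : N} (hx : Function.Injective fun r : R => r • x) :
    Module.Invertible R (contentIdeal R x) :=
  Module.Invertible.congr (dualEquivContent hx)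

/-- **the content ideal commutes with base change.** -/
theorem contentIdeal_baseChange {S : Type*} [CommRing S] [Algebra R S] {N' : Type*}
    [AddCommGroup N'] [Module R N'] [Module S N'] [IsScalarTower R S N'] {f : N →ₗ[R] N'}
    (hf : IsBaseChange S f) (x : N) :
    contentIdeal S (f x) = (contentIdeal R x).map (algebraMap R S) := by
  apply le_antisymm
  · intro r hr
    obtain ⟨ψ, rfl⟩ := mem_contentIdeal.mp hr
    have key : ∀ z : Module.Dual R N ⊗[R] N,
        ψ (f (contractLeft R N z • x)) ∈ (contentIdeal R x).map (algebraMap R S) := by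
      intro z
      induction z using TensorProduct.induction_on with
      | zero => simp
      | tmul φ n =>
        rw [contractLeft_apply, dual_apply_smul_comm, map_smul, ← algebraMap_smul S, map_smul,
          smul_eq_mul]
        exact Ideal.mul_mem_right _ _ (Ideal.mem_map_of_mem _ (apply_mem_contentIdeal φ x))
      | add z z' hz hz' =>
        rw [map_add, add_smul, map_add, map_add]
        exact add_mem hz hz'
    obtain ⟨z, hz⟩ := exists_contractLeft_eq_one (R := R) (N := N)
    have := key z
    rwa [hz, one_smul] at this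
  · rw [Ideal.map_le_iff_le_comap]
    intro r hr
    obtain ⟨φ, rfl⟩ := mem_contentIdeal.mp hr
    rw [Ideal.mem_comap, mem_contentIdeal]
    refine ⟨hf.lift ((Algebra.linearMap R S).comp φ), ?_⟩
    rw [hf.lift_eq]
    rfl

end Content

section Retract

universe uA uR uN

variable {A : Type uA} [CommRing A] {R : Type uR} [CommRing R] [Algebra A R] {N : Type uN}
  [AddCommGroup N] [Module R N] [Module A N] [IsScalarTower A R N] [Module.Invertible R N]

/-- `R ⧸ I` is an `R`-linear retract of a finite power of `N ⧸ I N`, for `N` invertible. -/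
theorem exists_retract_quotient (I : Ideal R) :
    ∃ (ι : Type (max uR uN)) (_ : Fintype ι)
      (i : (R ⧸ I) →ₗ[R] (ι → N ⧸ (I • ⊤ : Submodule R N)))
      (p : (ι → N ⧸ (I • ⊤ : Submodule R N)) →ₗ[R] (R ⧸ I)), p ∘ₗ i = LinearMap.id := by
  classical
  obtain ⟨z, hz⟩ := exists_contractLeft_eq_one (R := R) (N := N)
  obtain ⟨s, hs⟩ := TensorProduct.exists_finset z
  -- the induced maps on quotients
  have hφ : ∀ φ : Module.Dual R N, (I • ⊤ : Submodule R N) ≤ Submodule.comap φ I := by
    intro φ
    rw [Submodule.smul_le]
    intro r hr n _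
    rw [Submodule.mem_comap, map_smul]
    exact Ideal.mul_mem_right _ _ hr
  have hn : ∀ n : N, (I : Submodule R R) ≤
      Submodule.comap (LinearMap.toSpanSingleton R N n) (I • ⊤ : Submodule R N) := by
    intro n r hr
    rw [Submodule.mem_comap, LinearMap.toSpanSingleton_apply]
    exact Submodule.smul_mem_smul hr Submodule.mem_top
  let φb : ∀ j : s, (N ⧸ (I • ⊤ : Submodule R N)) →ₗ[R] (R ⧸ I) := fun j =>
    Submodule.mapQ (I • ⊤ : Submodule R N) I j.1.1 (hφ j.1.1)
  let nb : ∀ j : s, (R ⧸ I) →ₗ[R] (N ⧸ (I • ⊤ : Submodule R N)) := fun j =>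
    Submodule.mapQ I (I • ⊤ : Submodule R N) (LinearMap.toSpanSingleton R N j.1.2) (hn j.1.2)
  refine ⟨s, inferInstance,
    LinearMap.pi (fun j => nb j), ∑ j : s, (φb j).comp (LinearMap.proj j), ?_⟩
  apply LinearMap.ext
  intro y
  obtain ⟨r, rfl⟩ := Ideal.Quotient.mk_surjective y
  rw [LinearMap.comp_apply, LinearMap.sum_apply, LinearMap.id_apply]
  have h1 : ∀ j : s, ((φb j).comp (LinearMap.proj j))
      ((LinearMap.pi fun j : s => nb j) (Ideal.Quotient.mk I r)) =
      Ideal.Quotient.mk I (r * j.1.1 j.1.2) := by
    intro j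
    show (Submodule.mapQ (I • ⊤ : Submodule R N) I j.1.1 (hφ j.1.1))
      ((Submodule.mapQ I (I • ⊤ : Submodule R N) (LinearMap.toSpanSingleton R N j.1.2)
        (hn j.1.2)) (Submodule.Quotient.mk r)) = _
    rw [Submodule.mapQ_apply, Submodule.mapQ_apply, LinearMap.toSpanSingleton_apply, map_smul,
      smul_eq_mul]
    rfl
  simp_rw [h1]
  rw [← map_sum, ← Finset.mul_sum]
  have h2 : ∑ j : s, j.1.1 j.1.2 = 1 := by
    rw [← hz, hs, map_sum]
    simp_rw [contractLeft_apply]
    exact Finset.sum_coe_sort s (fun j => j.1 j.2)
  rw [h2, mul_one]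

/-- if `N ⧸ I N` is a finite `A`-module, so is `R ⧸ I` (`N` an invertible `R`-module). -/
theorem finite_quotient_of_finite (I : Ideal R)
    [Module.Finite A (N ⧸ (I • ⊤ : Submodule R N))] : Module.Finite A (R ⧸ I) := by
  classical
  obtain ⟨ι, _, i, p, hpi⟩ := exists_retract_quotient (N := N) I
  have hsurj : Function.Surjective (p.restrictScalars A) := by
    intro y
    exact ⟨i y, LinearMap.congr_fun hpi y⟩
  exact Module.Finite.of_surjective (p.restrictScalars A) hsurj

/-- **if `N ⧸ I N` is a finite projective `A`-module, so is `R ⧸ I`** (`N` an invertible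
`R`-module, `A → R`). -/
theorem finite_projective_quotient (I : Ideal R)
    [Module.Finite A (N ⧸ (I • ⊤ : Submodule R N))]
    [Module.Projective A (N ⧸ (I • ⊤ : Submodule R N))] :
    Module.Finite A (R ⧸ I) ∧ Module.Projective A (R ⧸ I) := by
  classical
  obtain ⟨ι, _, i, p, hpi⟩ := exists_retract_quotient (N := N) I
  have hsurj : Function.Surjective (p.restrictScalars A) := by
    intro y
    exact ⟨i y, LinearMap.congr_fun hpi y⟩
  have hproj : Module.Projective A (ι → N ⧸ (I • ⊤ : Submodule R N)) :=
    Module.Projective.of_equiv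
      (DirectSum.linearEquivFunOnFintype A ι (fun _ => N ⧸ (I • ⊤ : Submodule R N)))
  refine ⟨Module.Finite.of_surjective (p.restrictScalars A) hsurj, ?_⟩
  refine Module.Projective.of_split (i.restrictScalars A) (p.restrictScalars A) ?_
  apply LinearMap.ext
  intro y
  exact LinearMap.congr_fun hpi y

end Retract

section Semilocal

variable {R : Type*} [CommRing R] {N : Type*} [AddCommGroup N] [Module R N]
  [Module.Invertible R N]

/-- if `R ⧸ I` is semilocal, then `N ⧸ I N ≅ R ⧸ I` for an invertible module `N`. -/
theorem nonempty_quotient_equiv_of_semilocal (I : Ideal R) [Finite (MaximalSpectrum (R ⧸ I))] :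
    Nonempty ((N ⧸ (I • ⊤ : Submodule R N)) ≃ₗ[R] (R ⧸ I)) := by
  have h1 : Module.Free (R ⧸ I) ((R ⧸ I) ⊗[R] N) := inferInstance
  obtain ⟨e⟩ := Module.Invertible.free_iff_linearEquiv.mp h1
  exact ⟨(TensorProduct.quotTensorEquivQuotSMul N I).symm ≪≫ₗ e.restrictScalars R⟩

/-- over a field `K`: if `R ⧸ I` is finite-dimensional, then `N ⧸ I N ≅ R ⧸ I` (`K`-linearly)
for an invertible `R`-module `N`. -/
theorem nonempty_quotient_equiv_of_field {K : Type*} [Field K] [Algebra K R] [Module K N]
    [IsScalarTower K R N] (I : Ideal R) [Module.Finite K (R ⧸ I)] :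
    Nonempty ((N ⧸ (I • ⊤ : Submodule R N)) ≃ₗ[K] (R ⧸ I)) := by
  have hart : IsArtinianRing (R ⧸ I) := IsArtinianRing.of_finite K (R ⧸ I)
  obtain ⟨e⟩ := nonempty_quotient_equiv_of_semilocal (N := N) I
  exact ⟨e.restrictScalars K⟩

/-- over a field `K`: `dim_K N ⧸ I N = dim_K R ⧸ I` when the latter is finite. -/
theorem finrank_quotient_eq_of_field {K : Type*} [Field K] [Algebra K R] [Module K N]
    [IsScalarTower K R N] (I : Ideal R) [Module.Finite K (R ⧸ I)] :
    Module.finrank K (N ⧸ (I • ⊤ : Submodule R N)) = Module.finrank K (R ⧸ I) := by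
  obtain ⟨e⟩ := nonempty_quotient_equiv_of_field (N := N) (K := K) I
  exact e.finrank_eq

end Semilocal

section Annihilator

variable {R : Type*} [CommRing R] {N : Type*} [AddCommGroup N] [Module R N]
  [Module.Invertible R N]

/-- the annihilator of `N ⧸ I N` is `I`, for an invertible module `N`. -/
theorem mem_of_forall_smul_mem_smul_top (I : Ideal R) (u : R)
    (h : ∀ n : N, u • n ∈ (I • ⊤ : Submodule R N)) : u ∈ I := by
  have hφ : ∀ φ : Module.Dual R N, (I • ⊤ : Submodule R N) ≤ Submodule.comap φ I := by
    intro φ
    rw [Submodule.smul_le]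
    intro r hr n _
    rw [Submodule.mem_comap, map_smul]
    exact Ideal.mul_mem_right _ _ hr
  have key : ∀ z : Module.Dual R N ⊗[R] N, u * contractLeft R N z ∈ I := by
    intro z
    induction z using TensorProduct.induction_on with
    | zero => simp
    | tmul φ n =>
      rw [contractLeft_apply, ← smul_eq_mul, ← map_smul]
      exact hφ φ (h n)
    | add z z' hz hz' =>
      rw [map_add, mul_add]
      exact add_mem hz hz'
  obtain ⟨z, hz⟩ := exists_contractLeft_eq_one (R := R) (N := N)
  have := key z
  rwa [hz, mul_one] at this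

/-- the content ideal of `1 ⊗ x` in a base change. -/
theorem contentIdeal_one_tmul (S : Type*) [CommRing S] [Algebra R S] (x : N) :
    contentIdeal S ((1 : S) ⊗ₜ[R] x) = (contentIdeal R x).map (algebraMap R S) :=
  contentIdeal_baseChange (TensorProduct.isBaseChange R N S) x

end Annihilator

section Subtype

variable {R : Type*} [CommRing R]

/-- the content ideal of the inclusion `I ↪ R`, viewed as an element of `I^∨`, is `I` itself
(for `I` finite projective, e.g. invertible). -/
theorem contentIdeal_subtype (I : Ideal R) [Module.Finite R I] [Module.Projective R I] :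
    contentIdeal R (Submodule.subtype I : Module.Dual R I) = I := by
  ext r
  rw [mem_contentIdeal]
  constructor
  · rintro ⟨Φ, rfl⟩
    obtain ⟨a, rfl⟩ := (Module.evalEquiv R I).surjective Φ
    exact a.2
  · intro hr
    exact ⟨Module.Dual.eval R I ⟨r, hr⟩, rfl⟩

end Subtype

end Fermat.Agent.Jac.Chart43
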