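/-
JAC brick A4b (ChartDivisor), part 2: the divisor of zeros of a section of a line bundle on a
two-chart curve (blueprint 271, Claim 5), in the abstract `Core` vocabulary.

For a line bundle `M` and a section `σ : M.H0` which is regular on both charts
(`r ↦ r • σ_i` injective):
* `divisorOfSection M hM σ : IdealPair R0 R1 R01` with `I_i = contentIdeal R_i σ_i`;
* both ideals are invertible, `M^∨ ≅ O(-D)` (`dualIsoOfIdeals`) and `M ≅ O(D)` (`isoOfDivisor`);
* if `σ_1` generates `M.N1` near `s = 0` (Claim 2), then `D = IdealPair.ofChart0 c I0`;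
* `R0 ⧸ I0` is finite projective over `A` as soon as `N0 ⧸ R0 σ_0` is.
-/
import Fermat.Agent.Jac.Chart43.Content
import Fermat.Agent.Jac.LineOps39.IdealSheaf
import Fermat.Agent.Jac.LineOps39.Section

set_option autoImplicit false
set_option linter.unusedSectionVars false

universe u

open TensorProduct

namespace Fermat.Agent.Jac.Chart43

open Fermat.Agent.Jac.LineOps39

variable {A R0 R1 R01 : Type u} [CommRing A] [CommRing R0] [CommRing R1] [CommRing R01]
  [Algebra A R0] [Algebra A R1] [Algebra A R01] [Algebra R0 R01] [Algebra R1 R01]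
  [IsScalarTower A R0 R01] [IsScalarTower A R1 R01]

section Divisor

variable (M : QC2 A R0 R1 R01) (hM : M.IsLine) (σ : M.H0)

/-- the overlap module of a line bundle is invertible. -/
theorem invertible_N01 {M : QC2 A R0 R1 R01} (hM : M.IsLine) : Module.Invertible R01 M.N01 :=
  have := hM.inv0
  Module.Invertible.congr M.bc0.equiv

/-- **the divisor of zeros of a section** of a line bundle: on each chart the content ideal
`{φ σ_i | φ ∈ N_i^∨}` of the section. -/
def divisorOfSection : IdealPair R0 R1 R01 where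
  I0 := contentIdeal R0 σ.1.1
  I1 := contentIdeal R1 σ.1.2
  compat := by
    have := hM.inv0
    have := hM.inv1
    rw [← contentIdeal_baseChange M.bc0, ← contentIdeal_baseChange M.bc1, H0_compat]

@[simp] theorem divisorOfSection_I0 : (divisorOfSection M hM σ).I0 = contentIdeal R0 σ.1.1 := rfl

@[simp] theorem divisorOfSection_I1 : (divisorOfSection M hM σ).I1 = contentIdeal R1 σ.1.2 := rfl

theorem divisorOfSection_I01 :
    (divisorOfSection M hM σ).I01 = contentIdeal R01 (M.r0 σ.1.1) := by
  have := hM.inv0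
  exact (contentIdeal_baseChange M.bc0 σ.1.1).symm

end Divisor

section Iso

variable (c : TwoChart A R0 R1 R01) (M : QC2 A R0 R1 R01) (hM : M.IsLine) (σ : M.H0)

include c in
/-- regularity of `σ` on the overlap follows from regularity on chart 0. -/
theorem injective_smul_r0 (hx0 : Function.Injective fun r : R0 => r • σ.1.1) :
    Function.Injective fun r : R01 => r • M.r0 σ.1.1 :=
  f01_injective_of c (homOfSection M σ) hx0

/-- both ideals of the divisor of a regular section are invertible. -/
theorem invertible_divisorOfSection_I0 (hx0 : Function.Injective fun r : R0 => r • σ.1.1) :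
    Module.Invertible R0 (divisorOfSection M hM σ).I0 :=
  have := hM.inv0
  invertible_contentIdeal hx0

theorem invertible_divisorOfSection_I1 (hx1 : Function.Injective fun r : R1 => r • σ.1.2) :
    Module.Invertible R1 (divisorOfSection M hM σ).I1 :=
  have := hM.inv1
  invertible_contentIdeal hx1

/-- `O(-D)` is a line bundle, `D` the divisor of a regular section. -/
theorem isLine_ofIdeals_divisorOfSection (hx0 : Function.Injective fun r : R0 => r • σ.1.1)
    (hx1 : Function.Injective fun r : R1 => r • σ.1.2) :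
    (ofIdeals c (divisorOfSection M hM σ)).IsLine :=
  isLine_ofIdeals c _ (invertible_divisorOfSection_I0 M hM σ hx0)
    (invertible_divisorOfSection_I1 M hM σ hx1)

/-- **`M^∨ ≅ O(-D)`**, `D` the divisor of a regular section `σ` of the line bundle `M`:
`φ ↦ φ(σ)` on every chart. -/
noncomputable def dualIsoOfIdeals (hx0 : Function.Injective fun r : R0 => r • σ.1.1)
    (hx1 : Function.Injective fun r : R1 => r • σ.1.2) :
    QC2.Iso (dual c M (isVB_of_isLine hM)) (ofIdeals c (divisorOfSection M hM σ)) :=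
  have i0 := hM.inv0
  have i1 := hM.inv1
  have i01 := invertible_N01 hM
  { e0 := dualEquivContent hx0
    e1 := dualEquivContent hx1
    e01 := (dualEquivContent (injective_smul_r0 c M σ hx0)).trans
      (LinearEquiv.ofEq _ _ (divisorOfSection_I01 M hM σ).symm)
    comm0 := fun (φ : Module.Dual R0 M.N0) => Subtype.ext (transposeBC_apply M.bc0 φ σ.1.1)
    comm1 := fun (φ : Module.Dual R1 M.N1) => Subtype.ext (by
      show (transposeBC M.bc1 φ) (M.r0 σ.1.1) = algebraMap R1 R01 (φ σ.1.2)
      rw [H0_compat]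
      exact transposeBC_apply M.bc1 φ σ.1.2) }

/-- **`M ≅ O(D)`**, `D` the divisor of a regular section `σ` of the line bundle `M`. -/
noncomputable def isoOfDivisor (hx0 : Function.Injective fun r : R0 => r • σ.1.1)
    (hx1 : Function.Injective fun r : R1 => r • σ.1.2) :
    QC2.Iso M (ofDivisor c (divisorOfSection M hM σ)
      (isVB_of_isLine (isLine_ofIdeals_divisorOfSection c M hM σ hx0 hx1))) :=
  isoDualOfTensorIso c (isLine_ofIdeals_divisorOfSection c M hM σ hx0 hx1)
    (isoTrans (tensorIso (isoSymm (dualIsoOfIdeals c M hM σ hx0 hx1)) (isoRefl M))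
      (dualTensorIso c M hM))

end Iso

section OfChart0

variable (c : TwoChart A R0 R1 R01)

/-- two ideal pairs with the same chart ideals are equal. -/
theorem idealPair_ext {D E : IdealPair R0 R1 R01} (h0 : D.I0 = E.I0) (h1 : D.I1 = E.I1) :
    D = E := by
  cases D
  cases E
  simp only at h0 h1
  subst h0
  subst h1
  rfl

/-- an ideal of chart 1 which is comaximal with `s` is the contraction of its extension to the
overlap. -/
theorem comap_map_eq_of_one_add_s_mul_mem (I1 : Ideal R1) (w : R1) (h : 1 + c.s * w ∈ I1) :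
    (I1.map (algebraMap R1 R01)).comap (algebraMap R1 R01) = I1 := by
  have := c.away1
  apply le_antisymm _ Ideal.le_comap_map
  intro x hx
  rw [Ideal.mem_comap,
    IsLocalization.algebraMap_mem_map_algebraMap_iff (Submonoid.powers c.s)] at hx
  obtain ⟨_, ⟨n, rfl⟩, hn⟩ := hx
  have hunit : IsUnit (Ideal.Quotient.mk I1 c.s) := by
    have h0 : Ideal.Quotient.mk I1 (1 + c.s * w) = 0 := Ideal.Quotient.eq_zero_iff_mem.mpr h
    rw [map_add, map_one, map_mul] at h0
    refine IsUnit.of_mul_eq_one (Ideal.Quotient.mk I1 (-w)) ?_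
    rw [map_neg, mul_neg]
    linear_combination (-1 : R1 ⧸ I1) * h0
  have h1 : Ideal.Quotient.mk I1 (c.s ^ n * x) = 0 := Ideal.Quotient.eq_zero_iff_mem.mpr hn
  rw [map_mul, map_pow] at h1
  exact Ideal.Quotient.eq_zero_iff_mem.mp (((hunit.pow n).mul_right_eq_zero).mp h1)

variable (M : QC2 A R0 R1 R01) (hM : M.IsLine) (σ : M.H0)

include hM in
/-- **Claim 2 ⇒ `D` misses `s = 0`.**  If `s` acts surjectively on `N1 ⧸ R1 σ_1` (the section
generates near `s = 0`), then `1 + s w` lies in the chart-1 ideal of the divisor of `σ`. -/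
theorem exists_one_add_s_mul_mem_contentIdeal
    (hs : ∀ y : M.N1 ⧸ Submodule.span R1 {σ.1.2}, ∃ y', c.s • y' = y) :
    ∃ w : R1, 1 + c.s * w ∈ contentIdeal R1 σ.1.2 := by
  have := hM.inv1
  have hfin : Module.Finite R1 (M.N1 ⧸ Submodule.span R1 {σ.1.2}) := inferInstance
  have hle : (⊤ : Submodule R1 (M.N1 ⧸ Submodule.span R1 {σ.1.2})) ≤
      Ideal.span {c.s} • (⊤ : Submodule R1 (M.N1 ⧸ Submodule.span R1 {σ.1.2})) := by
    intro y _
    obtain ⟨y', rfl⟩ := hs y
    exact Submodule.smul_mem_smul (Ideal.mem_span_singleton_self c.s) Submodule.mem_top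
  obtain ⟨r, hr1, hr2⟩ := Submodule.exists_sub_one_mem_and_smul_eq_zero_of_fg_of_le_smul
    (Ideal.span {c.s}) (⊤ : Submodule R1 (M.N1 ⧸ Submodule.span R1 {σ.1.2}))
    Module.Finite.fg_top hle
  obtain ⟨w, hw⟩ := Ideal.mem_span_singleton'.mp hr1
  refine ⟨w, ?_⟩
  have hr : r = 1 + c.s * w := by
    rw [mul_comm, hw]
    ring
  rw [← hr]
  apply mem_of_forall_smul_mem_smul_top (N := M.N1)
  intro n
  rw [contentIdeal_smul_top, ← Submodule.Quotient.mk_eq_zero, Submodule.Quotient.mk_smul]
  exact hr2 _ Submodule.mem_top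

/-- if the divisor of `σ` misses `s = 0`, it is the closure of its chart-0 part. -/
theorem divisorOfSection_eq_ofChart0 (h : ∃ w : R1, 1 + c.s * w ∈ contentIdeal R1 σ.1.2) :
    divisorOfSection M hM σ = IdealPair.ofChart0 c (contentIdeal R0 σ.1.1) := by
  obtain ⟨w, hw⟩ := h
  refine idealPair_ext rfl ?_
  show contentIdeal R1 σ.1.2 =
    ((contentIdeal R0 σ.1.1).map (algebraMap R0 R01)).comap (algebraMap R1 R01)
  have hc : (contentIdeal R0 σ.1.1).map (algebraMap R0 R01) =
      (contentIdeal R1 σ.1.2).map (algebraMap R1 R01) := (divisorOfSection M hM σ).compat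
  rw [hc, comap_map_eq_of_one_add_s_mul_mem c _ w hw]

end OfChart0

section Consequences

variable (c : TwoChart A R0 R1 R01) (M : QC2 A R0 R1 R01) (hM : M.IsLine) (σ : M.H0)

include hM in
/-- `N0 ⧸ I0 N0 = N0 ⧸ R0 σ_0`, `I0` the content ideal of `σ_0`. -/
theorem contentIdeal_smul_top_N0 :
    (contentIdeal R0 σ.1.1 • ⊤ : Submodule R0 M.N0) = Submodule.span R0 {σ.1.1} :=
  have := hM.inv0
  contentIdeal_smul_top σ.1.1

/-- the `A`-linear identification `N0 ⧸ I0 N0 ≃ N0 ⧸ R0 σ_0`. -/
noncomputable def quotSMulTopEquivQuotSpan :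
    (M.N0 ⧸ (contentIdeal R0 σ.1.1 • ⊤ : Submodule R0 M.N0)) ≃ₗ[A]
      (M.N0 ⧸ Submodule.span R0 {σ.1.1}) :=
  (Submodule.quotEquivOfEq _ _ (contentIdeal_smul_top_N0 M hM σ)).restrictScalars A

include hM in
/-- **Claim 5, finiteness.**  If `Q0 = N0 ⧸ R0 σ_0` is a finite projective `A`-module, so is
`R0 ⧸ I0`, `I0` the content ideal of `σ_0`. -/
theorem finite_projective_quotient_contentIdeal
    (hfin : Module.Finite A (M.N0 ⧸ Submodule.span R0 {σ.1.1}))
    (hproj : Module.Projective A (M.N0 ⧸ Submodule.span R0 {σ.1.1})) :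
    Module.Finite A (R0 ⧸ contentIdeal R0 σ.1.1) ∧
      Module.Projective A (R0 ⧸ contentIdeal R0 σ.1.1) := by
  have := hM.inv0
  have h1 : Module.Finite A (M.N0 ⧸ (contentIdeal R0 σ.1.1 • ⊤ : Submodule R0 M.N0)) :=
    Module.Finite.equiv (quotSMulTopEquivQuotSpan M hM σ).symm
  have h2 : Module.Projective A (M.N0 ⧸ (contentIdeal R0 σ.1.1 • ⊤ : Submodule R0 M.N0)) :=
    Module.Projective.of_equiv (quotSMulTopEquivQuotSpan M hM σ).symm
  exact finite_projective_quotient (A := A) (N := M.N0) (contentIdeal R0 σ.1.1)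

/-- the set of values `φ(τ_0)`, `τ` a section, generates the content ideal of `σ_0` when `σ`
generates `H⁰`. -/
theorem span_dual_apply_eq_contentIdeal (hgen : ∀ τ : M.H0, ∃ a : A, τ = a • σ) :
    Ideal.span {x : R0 | ∃ τ : M.H0, ∃ φ : Module.Dual R0 M.N0, x = φ τ.1.1} =
      contentIdeal R0 σ.1.1 := by
  apply le_antisymm
  · rw [Ideal.span_le]
    rintro x ⟨τ, φ, rfl⟩
    obtain ⟨a, rfl⟩ := hgen τ
    have h1 : (a • σ).1.1 = algebraMap A R0 a • σ.1.1 := by
      rw [algebraMap_smul]
      rfl
    rw [h1, map_smul]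
    exact Ideal.mul_mem_left _ _ (apply_mem_contentIdeal φ σ.1.1)
  · intro x hx
    obtain ⟨φ, rfl⟩ := mem_contentIdeal.mp hx
    exact Ideal.subset_span ⟨σ, φ, rfl⟩

end Consequences

section Converse

variable (c : TwoChart A R0 R1 R01)

/-- **the two constructions are inverse to each other**: the divisor of the canonical section
`1` of `O(D)` is `D`. -/
theorem divisorOfSection_oneSection (D : IdealPair R0 R1 R01) (h0 : Module.Invertible R0 D.I0)
    (h1 : Module.Invertible R1 D.I1) :
    divisorOfSection (ofDivisor c D (isVB_of_isLine (isLine_ofIdeals c D h0 h1)))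
      (isLine_ofDivisor c D h0 h1)
      (oneSection c D (isVB_of_isLine (isLine_ofIdeals c D h0 h1))) = D :=
  idealPair_ext (contentIdeal_subtype D.I0) (contentIdeal_subtype D.I1)

end Converse

section Field

variable {K R0 R1 R01 : Type u} [Field K] [CommRing R0] [CommRing R1] [CommRing R01]
  [Algebra K R0] [Algebra K R1] [Algebra K R01] [Algebra R0 R01] [Algebra R1 R01]
  [IsScalarTower K R0 R01] [IsScalarTower K R1 R01]
  (M : QC2 K R0 R1 R01) (hM : M.IsLine) (σ : M.H0)

include hM in
/-- over a field: `dim R0 ⧸ I0 = dim N0 ⧸ R0 σ_0` when the latter is finite. -/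
theorem finrank_quotient_contentIdeal
    (hfin : Module.Finite K (M.N0 ⧸ Submodule.span R0 {σ.1.1})) :
    Module.Finite K (R0 ⧸ contentIdeal R0 σ.1.1) ∧
      Module.finrank K (R0 ⧸ contentIdeal R0 σ.1.1) =
        Module.finrank K (M.N0 ⧸ Submodule.span R0 {σ.1.1}) := by
  have := hM.inv0
  obtain ⟨h1, -⟩ := finite_projective_quotient_contentIdeal M hM σ hfin
    (Module.Projective.of_free)
  refine ⟨h1, ?_⟩
  rw [← finrank_quotient_eq_of_field (N := M.N0) (K := K) (contentIdeal R0 σ.1.1)]
  exact (quotSMulTopEquivQuotSpan M hM σ).finrank_eq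

end Field

end Fermat.Agent.Jac.Chart43
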