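/-
JAC brick A4b (ChartDivisor), MAIN THEOREM: blueprint 271, Claims 1-5 assembled in the abstract
`Core` vocabulary.

Setting: `c : TwoChart A R0 R1 R01`, `M` a line bundle of fibrewise Euler characteristic `1`,
rigidified at a point at infinity, with `H¹(M(-Q_i)) = 0` at all points at infinity (the
`W`-hypotheses); `R0`, `R1` free over `A` with integral fibres.  Then `H⁰(M) = A σ`, the content
ideal `I0` of `σ_0` is invertible, equals the section ideal of `M`, misses `s = 0`,
`M ≅ O(Z)` for `Z = V(I0)`, `N0 ⧸ R0 σ_0 ≃ H¹(O)` and `R0 ⧸ I0` is finite over `A`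
(projective as soon as `H¹(O)` is).
-/
import Fermat.Agent.Jac.Chart43.DivisorOfSection
import Fermat.Agent.Jac.SectionOfChart14.Full

set_option autoImplicit false
set_option linter.unusedSectionVars false

universe u

open TensorProduct

namespace Fermat.Agent.Jac.Chart43

open Fermat.Agent.Jac.LineOps39 Fermat.Agent.Jac.SectionOfChart14 Fermat.Agent.Jac.P1CohChi

variable {A R0 R1 R01 : Type u} [CommRing A] [CommRing R0] [CommRing R1] [CommRing R01]
  [Algebra A R0] [Algebra A R1] [Algebra A R01] [Algebra R0 R01] [Algebra R1 R01]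
  [IsScalarTower A R0 R01] [IsScalarTower A R1 R01]

variable (c : TwoChart A R0 R1 R01) (M : QC2 A R0 R1 R01)

/-- the conclusions of Claim 5 for a section `σ` of a line bundle. -/
structure IsChartDivisorSection (σ : M.H0) : Prop where
  gen : ∀ τ : M.H0, ∃ a : A, τ = a • σ
  free : ∀ a : A, a • σ = 0 → a = 0
  inj0 : Function.Injective fun r : R0 => r • σ.1.1
  inj1 : Function.Injective fun r : R1 => r • σ.1.2
  sectionIdeal_eq : Ideal.span {x : R0 | ∃ τ : M.H0, ∃ φ : Module.Dual R0 M.N0, x = φ τ.1.1} =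
    contentIdeal R0 σ.1.1
  inv0 : Module.Invertible R0 (contentIdeal R0 σ.1.1)
  inv1 : Module.Invertible R1 (IdealPair.ofChart0 c (contentIdeal R0 σ.1.1)).I1
  unit_s : ∃ w : R1, 1 + c.s * w ∈ (IdealPair.ofChart0 c (contentIdeal R0 σ.1.1)).I1
  iso : ∃ hVB : (ofIdeals c (IdealPair.ofChart0 c (contentIdeal R0 σ.1.1))).IsVB,
    Nonempty (QC2.Iso M (ofDivisor c (IdealPair.ofChart0 c (contentIdeal R0 σ.1.1)) hVB))
  finite : Module.Finite A (R0 ⧸ contentIdeal R0 σ.1.1)
  quotEquiv : Nonempty ((M.N0 ⧸ Submodule.span R0 {σ.1.1}) ≃ₗ[A]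
    (QC2.unit : QC2 A R0 R1 R01).H1)
  projective : Module.Finite A (QC2.unit : QC2 A R0 R1 R01).H1 →
    Module.Projective A (QC2.unit : QC2 A R0 R1 R01).H1 →
    Module.Projective A (R0 ⧸ contentIdeal R0 σ.1.1)

/-- **Claim 5 from Claims 2-4** for a given section. -/
theorem isChartDivisorSection_of (hM : M.IsLine) (σ : M.H0)
    (hgen : ∀ τ : M.H0, ∃ a : A, τ = a • σ) (hfree : ∀ a : A, a • σ = 0 → a = 0)
    (hx0 : Function.Injective fun r : R0 => r • σ.1.1)
    (hx1 : Function.Injective fun r : R1 => r • σ.1.2)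
    (hs : ∀ y : M.N1 ⧸ Submodule.span R1 {σ.1.2}, ∃ y', c.s • y' = y)
    (hfin : Module.Finite A (M.N0 ⧸ Submodule.span R0 {σ.1.1}))
    (e : (M.N0 ⧸ Submodule.span R0 {σ.1.1}) ≃ₗ[A] (QC2.unit : QC2 A R0 R1 R01).H1) :
    IsChartDivisorSection c M σ := by
  have i0 := hM.inv0
  have i1 := hM.inv1
  have hw := exists_one_add_s_mul_mem_contentIdeal c M hM σ hs
  have hD := divisorOfSection_eq_ofChart0 c M hM σ hw
  have hline := isLine_ofIdeals_divisorOfSection c M hM σ hx0 hx1
  have hiso := isoOfDivisor c M hM σ hx0 hx1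
  have hI1 : (IdealPair.ofChart0 c (contentIdeal R0 σ.1.1)).I1 = contentIdeal R1 σ.1.2 := by
    rw [← hD]
    rfl
  have hfin' : Module.Finite A (M.N0 ⧸ (contentIdeal R0 σ.1.1 • ⊤ : Submodule R0 M.N0)) :=
    Module.Finite.equiv (quotSMulTopEquivQuotSpan M hM σ).symm
  refine
    { gen := hgen
      free := hfree
      inj0 := hx0
      inj1 := hx1
      sectionIdeal_eq := span_dual_apply_eq_contentIdeal M σ hgen
      inv0 := invertible_contentIdeal hx0
      inv1 := ?_
      unit_s := ?_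
      iso := ?_
      finite := finite_quotient_of_finite (A := A) (N := M.N0) (contentIdeal R0 σ.1.1)
      quotEquiv := ⟨e⟩
      projective := ?_ }
  · rw [hI1]
    exact invertible_contentIdeal hx1
  · rw [hI1]
    exact hw
  · rw [← hD]
    exact ⟨isVB_of_isLine hline, ⟨hiso⟩⟩
  · intro h1 h2
    have h3 : Module.Finite A (M.N0 ⧸ Submodule.span R0 {σ.1.1}) := hfin
    have h4 : Module.Projective A (M.N0 ⧸ Submodule.span R0 {σ.1.1}) :=
      Module.Projective.of_equiv e.symm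
    exact (finite_projective_quotient_contentIdeal M hM σ h3 h4).2

/-- **Blueprint 271, Claims 1-5.** -/
theorem chart_divisor (hM : M.IsLine) (hF : M.FiniteOverLine c) (hP : M.ProjOverLine c)
    (hchi : ∀ p : PrimeSpectrum A, M.chi p = 1) {ι : Type*}
    (pts : InfPoints c ι) (i₀ : ι) (ρ : Fib M (pts.I i₀) ≃ₗ[A] A)
    (h1 : ∀ i, Subsingleton (downTwist c M (ptPair c (pts.I i))).H1)
    [Module.Free A R0] [Module.Free A R1]
    (hdom0 : ∀ p : PrimeSpectrum A, IsDomain (p.asIdeal.ResidueField ⊗[A] R0))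
    (hdom1 : ∀ p : PrimeSpectrum A, IsDomain (p.asIdeal.ResidueField ⊗[A] R1)) :
    Subsingleton M.H1 ∧ GoodH0 M ∧
      ∃ σ : M.H0, ρ (Submodule.Quotient.mk σ.1.2) = 1 ∧ IsChartDivisorSection c M σ := by
  have i0 := hM.inv0
  have i1 := hM.inv1
  obtain ⟨hH1, hgood, σ, hσ, hgen', hfree, hse, -, -, q3, -, ⟨e⟩⟩ :=
    section_of_chart_full c M hF hP hchi pts i₀ ρ h1 hdom0 hdom1
  have hgen : ∀ τ : M.H0, ∃ a : A, τ = a • σ := fun τ => ⟨_, hgen' τ⟩
  have hev : ∀ i, Function.Surjective (ev M (pts.I i)) :=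
    fun i => ev_surjective c M (pts.s_mem i) (h1 i)
  have hs := s_surjective_Q1 c σ hgen pts.I hev pts.exhaust
  have hx0 : Function.Injective fun r : R0 => r • σ.1.1 := fun r r' hrr' => hse.inj0 hrr'
  have hx1 : Function.Injective fun r : R1 => r • σ.1.2 := fun r r' hrr' => hse.inj1 hrr'
  exact ⟨hH1, hgood, σ, hσ, isChartDivisorSection_of c M hM σ hgen hfree hx0 hx1 hs q3 e⟩

end Fermat.Agent.Jac.Chart43
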