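/-
JAC brick R2a (shared wiring, S2): blueprint 271, Claims 1-5 for the CONCRETE tensor rings.

For `c0 : TwoChart k B0 B1 B01`, points at infinity `e : ιInf → (B1 →ₐ[k] k)` (`InfData`), the base
point `P0 = e i₀`, and `M : QCA k B0 B1 B01 A` a line bundle, rigidifiable at `P0`, of fibrewise
Euler characteristic `1`, with `H1Vanish c0 e M`: the conclusions of `Chart43.chart_divisor` for
`c := c0.baseChange A`.
-/
import Fermat.Agent.Jac.Chart43.Main
import Fermat.Agent.Jac.Chart43.FibreAt
import Fermat.Agent.Jac.AlgChart76.HilbCore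
import Fermat.Agent.Jac.LineOps39.OverLine
import Fermat.Agent.Jac.FlatBC60McCoy

set_option autoImplicit false
set_option linter.unusedSectionVars false
set_option linter.style.haveILetI false

universe u

open TensorProduct

namespace Fermat.Agent.Jac.Chart43

open scoped Fermat.Agent.Jac.BaseChange75
open Fermat.Agent.Jac.LineOps39 Fermat.Agent.Jac.SectionOfChart14 Fermat.Agent.Jac.P1CohChi
  Fermat.Agent.Jac.AlgChart76 Fermat.Agent.Jac.BaseChange75

/-- a prime ideal containing a product of a list of ideals contains one of them. -/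
theorem exists_le_of_list_prod_le {R : Type*} [CommRing R] {P : Ideal R} (hP : P.IsPrime) :
    ∀ l : List (Ideal R), l.prod ≤ P → ∃ I ∈ l, I ≤ P
  | [], h => by
    exfalso
    rw [List.prod_nil, Ideal.one_eq_top, top_le_iff] at h
    exact hP.ne_top h
  | I :: l, h => by
    rw [List.prod_cons] at h
    rcases hP.mul_le.mp h with h1 | h1
    · exact ⟨I, List.mem_cons_self, h1⟩
    · obtain ⟨J, hJ, hJP⟩ := exists_le_of_list_prod_le hP l h1
      exact ⟨J, List.mem_cons_of_mem _ hJ, hJP⟩

section Concrete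

variable {k : Type u} [Field k] {B0 B1 B01 : Type u} [CommRing B0] [CommRing B1] [CommRing B01]
  [Algebra k B0] [Algebra k B1] [Algebra k B01] [Algebra B0 B01] [Algebra B1 B01]
  [IsScalarTower k B0 B01] [IsScalarTower k B1 B01]
  (c0 : TwoChart k B0 B1 B01) {ιInf : Type} (e : ιInf → (B1 →ₐ[k] k))

/-- the extension of a product of ideals of `B1` to `A ⊗ B1`. -/
theorem map_list_prod_includeRight (A : Type u) [CommRing A] [Algebra k A] (l : List ιInf) :
    (l.map (fun i => ptIdeal (e i) A)).prod =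
      ((l.map (fun i => RingHom.ker (e i))).prod).map
        (Algebra.TensorProduct.includeRight : B1 →ₐ[k] A ⊗[k] B1) := by
  induction l with
  | nil => simp [Ideal.one_eq_top, Ideal.map_top]
  | cons i l ih =>
    rw [List.map_cons, List.prod_cons, List.map_cons, List.prod_cons, Ideal.map_mul, ih,
      ptIdeal_eq_map]

/-- the points at infinity over `A`, in helper14's format. -/
noncomputable def infPoints (hInf : InfData c0 e) (A : Type u) [CommRing A] [Algebra k A] :
    InfPoints (c0.baseChange A) ιInf where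
  I i := ptIdeal (e i) A
  s_mem i := one_tmul_mem_ptIdeal (e i) A (hInf.s_mem i)
  exhaust := by
    intro P hP hs
    obtain ⟨l, hl⟩ := hInf.exhaust
    have h1 : (l.map (fun i => ptIdeal (e i) A)).prod ≤ P := by
      rw [map_list_prod_includeRight]
      refine le_trans (Ideal.map_mono hl) ?_
      rw [Ideal.map_span, Ideal.span_le]
      rintro _ ⟨x, hx, rfl⟩
      rw [Set.mem_singleton_iff] at hx
      subst hx
      exact hs
    obtain ⟨I, hI, hIP⟩ := exists_le_of_list_prod_le hP _ h1
    obtain ⟨i, -, rfl⟩ := List.mem_map.mp hI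
    exact ⟨i, hIP⟩

@[simp] theorem infPoints_I (hInf : InfData c0 e) (A : Type u) [CommRing A] [Algebra k A]
    (i : ιInf) : (infPoints c0 e hInf A).I i = ptIdeal (e i) A := rfl

/-- a rigidification at the point `q` gives a trivialisation of the fibre `N ⧸ I N`. -/
theorem nonempty_quot_equiv_of_rigidMod {B : Type u} [CommRing B] [Algebra k B]
    {A : Type u} [CommRing A] [Algebra k A] (q : B →ₐ[k] k) (N : Type u) [AddCommGroup N]
    [Module (A ⊗[k] B) N] [Module A N] [IsScalarTower A (A ⊗[k] B) N]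
    (h : RigidMod q A N) :
    Nonempty ((N ⧸ (ptIdeal q A • ⊤ : Submodule (A ⊗[k] B) N)) ≃ₗ[A] A) := by
  letI := algEval q A
  obtain ⟨ρ⟩ := h
  obtain ⟨ε⟩ := nonempty_fibre_equiv (N := N) (evalA q A)
  exact ⟨ε.symm ≪≫ₗ ρ⟩

/-- a rigidification at the point `q` gives a trivialisation of the fibre `N1 ⧸ I N1`. -/
theorem nonempty_fib_equiv_of_rigidMod {A : Type u} [CommRing A] [Algebra k A]
    (q : B1 →ₐ[k] k) (M : QCA k B0 B1 B01 A) (h : RigidMod q A M.N1) :
    Nonempty (Fib M (ptIdeal q A) ≃ₗ[A] A) :=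
  nonempty_quot_equiv_of_rigidMod q M.N1 h

/-- the fibres of `A ⊗ B` over `A` are domains when `B` is geometrically integral. -/
theorem isDomain_fibres {B : Type u} [CommRing B] [Algebra k B]
    (hB : ∀ (K : Type u) [Field K] [Algebra k K], IsDomain (K ⊗[k] B))
    (A : Type u) [CommRing A] [Algebra k A] (p : PrimeSpectrum A) :
    IsDomain (p.asIdeal.ResidueField ⊗[A] (A ⊗[k] B)) :=
  FlatBC60McCoy.isDomain_fibre_of_isDomain_tensor p (hB p.asIdeal.ResidueField)

/-- **Blueprint 271, Claims 1-5 over the tensor rings.** -/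
theorem stdFam_chart_divisor (hc0 : c0.FiniteProjOverLine) (hInf : InfData c0 e) (i₀ : ιInf)
    (hB0 : ∀ (K : Type u) [Field K] [Algebra k K], IsDomain (K ⊗[k] B0))
    (hB1 : ∀ (K : Type u) [Field K] [Algebra k K], IsDomain (K ⊗[k] B1))
    {A : Type u} [CommRing A] [Algebra k A] (M : QCA k B0 B1 B01 A) (hM : M.IsLine)
    (hr : Rigidifiable (e i₀) M) (hχ : ∀ p : PrimeSpectrum A, M.chi p = 1)
    (hv : H1Vanish c0 e M) :
    Subsingleton M.H1 ∧ GoodH0 M ∧ ∃ (ρ : Fib M (ptIdeal (e i₀) A) ≃ₗ[A] A) (σ : M.H0),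
      ρ (Submodule.Quotient.mk σ.1.2) = 1 ∧ IsChartDivisorSection (c0.baseChange A) M σ := by
  obtain ⟨ρ⟩ := nonempty_fib_equiv_of_rigidMod (e i₀) M hr
  have hcA := hc0.baseChange A
  have hF := finiteOverLine_of_isLine (c0.baseChange A) hcA hM
  have hP := projOverLine_of_isLine (c0.baseChange A) hcA hM
  obtain ⟨h1, h2, σ, hσ, hcd⟩ := chart_divisor (c0.baseChange A) M hM hF hP hχ
    (infPoints c0 e hInf A) i₀ ρ hv (isDomain_fibres hB0 A) (isDomain_fibres hB1 A)
  exact ⟨h1, h2, ρ, σ, hσ, hcd⟩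

end Concrete

end Fermat.Agent.Jac.Chart43
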