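/-
JAC brick A4b (ChartDivisor), part 3: base change of sections and of their divisors along
`JSmooth85Alg.LiftData` (the base-change relation of the moduli problem of line `QC2`'s).

* `liftSection h σ : L'.H0` for `h : LiftData L L'`, `σ : L.H0`;
* `contentIdeal_liftSection_fst` : the content ideal of `(liftSection h σ)_0` is the extension of
  the content ideal of `σ_0` (same on chart 1);
* `liftSection_generates` : if `σ` generates `H⁰(L)` and `A' ⊗ H⁰(L) → H⁰(L_{A'})` is onto, then
  `liftSection h σ` generates `H⁰(L')`;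
* `span_dual_apply_liftData` : helper76's `sectionIdeal` commutes with base change under these
  hypotheses.
-/
import Fermat.Agent.Jac.Chart43.DivisorOfSection
import Fermat.Agent.Jac.BaseChange75.Complex

set_option autoImplicit false
set_option linter.unusedSectionVars false

universe u

open TensorProduct

namespace Fermat.Agent.Jac.Chart43

open Fermat.Agent.Jac.LineOps39 Fermat.Agent.Jac.JSmooth85Alg Fermat.Agent.Jac.BaseChange75

section Lift

variable {A R0 R1 R01 A' R0' R1' R01' : Type u}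
  [CommRing A] [CommRing R0] [CommRing R1] [CommRing R01]
  [Algebra A R0] [Algebra A R1] [Algebra A R01] [Algebra R0 R01] [Algebra R1 R01]
  [IsScalarTower A R0 R01] [IsScalarTower A R1 R01]
  [CommRing A'] [CommRing R0'] [CommRing R1'] [CommRing R01']
  [Algebra A' R0'] [Algebra A' R1'] [Algebra A' R01'] [Algebra R0' R01'] [Algebra R1' R01']
  [IsScalarTower A' R0' R01'] [IsScalarTower A' R1' R01']
  [Algebra R0 R0'] [Algebra R1 R1'] [Algebra R01 R01']

variable {L : QC2 A R0 R1 R01} {L' : QC2 A' R0' R1' R01'} (h : LiftData L L')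

/-- the section of a base change `L'` of `L` induced by a section of `L`. -/
noncomputable def liftSection (σ : L.H0) : L'.H0 :=
  ⟨(h.e0 (1 ⊗ₜ[R0] σ.1.1), h.e1 (1 ⊗ₜ[R1] σ.1.2)), by
    rw [mem_H0_iff]
    show L'.r0 (h.e0 (1 ⊗ₜ[R0] σ.1.1)) = L'.r1 (h.e1 (1 ⊗ₜ[R1] σ.1.2))
    rw [← h.comm0, ← h.comm1, H0_compat]⟩

@[simp] theorem liftSection_fst (σ : L.H0) :
    (liftSection h σ).1.1 = h.e0 (1 ⊗ₜ[R0] σ.1.1) := rfl

@[simp] theorem liftSection_snd (σ : L.H0) :
    (liftSection h σ).1.2 = h.e1 (1 ⊗ₜ[R1] σ.1.2) := rfl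

/-- the chart-0 content ideal of a base-changed section is the extended ideal. -/
theorem contentIdeal_liftSection_fst [Module.Invertible R0 L.N0] (σ : L.H0) :
    contentIdeal R0' (liftSection h σ).1.1 =
      (contentIdeal R0 σ.1.1).map (algebraMap R0 R0') := by
  rw [liftSection_fst, contentIdeal_equiv, contentIdeal_one_tmul]

/-- the chart-1 content ideal of a base-changed section is the extended ideal. -/
theorem contentIdeal_liftSection_snd [Module.Invertible R1 L.N1] (σ : L.H0) :
    contentIdeal R1' (liftSection h σ).1.2 =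
      (contentIdeal R1 σ.1.2).map (algebraMap R1 R1') := by
  rw [liftSection_snd, contentIdeal_equiv, contentIdeal_one_tmul]

end Lift

section Generate

variable {A R0 R1 R01 A' R0' R1' R01' : Type u}
  [CommRing A] [CommRing R0] [CommRing R1] [CommRing R01]
  [Algebra A R0] [Algebra A R1] [Algebra A R01] [Algebra R0 R01] [Algebra R1 R01]
  [IsScalarTower A R0 R01] [IsScalarTower A R1 R01]
  [CommRing A'] [CommRing R0'] [CommRing R1'] [CommRing R01']
  [Algebra A' R0'] [Algebra A' R1'] [Algebra A' R01'] [Algebra R0' R01'] [Algebra R1' R01']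
  [IsScalarTower A' R0' R01'] [IsScalarTower A' R1' R01']
  [Algebra R0 R0'] [Algebra R1 R1'] [Algebra R01 R01']
  [Algebra A A']
  [Algebra A R0'] [IsScalarTower A A' R0'] [IsScalarTower A R0 R0'] [Algebra.IsPushout A A' R0 R0']
  [Algebra A R1'] [IsScalarTower A A' R1'] [IsScalarTower A R1 R1'] [Algebra.IsPushout A A' R1 R1']
  [Algebra A R01'] [IsScalarTower A A' R01'] [IsScalarTower A R01 R01']
  [Algebra.IsPushout A A' R01 R01']

variable {L : QC2 A R0 R1 R01} {L' : QC2 A' R0' R1' R01'} (h : LiftData L L')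

/-- `liftSection` is the image of `1 ⊗ σ` under `A' ⊗ H⁰(L) → H⁰(L_{A'}) ≃ H⁰(L')`. -/
theorem h0Equiv_H0BCMap_one_tmul (σ : L.H0) :
    LiftData.h0Equiv h (L.H0BCMap A' (1 ⊗ₜ[A] σ)) = liftSection h σ := by
  apply Subtype.ext
  rw [LiftData.h0Equiv_coe]
  show LiftData.eProd h (1 ⊗ₜ[A] (σ : L.N0 × L.N1)) = _
  rw [LiftData.eProd_one_tmul]
  rfl

/-- **generation commutes with base change**: if `σ` generates `H⁰(L)` and the base-change map
`A' ⊗ H⁰(L) → H⁰(L_{A'})` is onto, the lifted section generates `H⁰(L')`. -/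
theorem liftSection_generates (σ : L.H0) (hgen : ∀ τ : L.H0, ∃ a : A, τ = a • σ)
    (hsurj : Function.Surjective (L.H0BCMap A')) (τ' : L'.H0) :
    ∃ a' : A', τ' = a' • liftSection h σ := by
  obtain ⟨x, rfl⟩ := (LiftData.h0Equiv h).surjective τ'
  obtain ⟨z, rfl⟩ := hsurj x
  have key : ∀ z : A' ⊗[A] L.H0, ∃ a' : A', z = a' • ((1 : A') ⊗ₜ[A] σ) := by
    intro z
    induction z using TensorProduct.induction_on with
    | zero => exact ⟨0, by simp⟩
    | tmul b τ =>
      obtain ⟨a, rfl⟩ := hgen τ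
      refine ⟨b * algebraMap A A' a, ?_⟩
      rw [TensorProduct.smul_tmul', smul_eq_mul, mul_one, ← TensorProduct.smul_tmul,
        Algebra.smul_def, mul_comm]
    | add z z' hz hz' =>
      obtain ⟨a, ha⟩ := hz
      obtain ⟨a', ha'⟩ := hz'
      exact ⟨a + a', by rw [add_smul, ← ha, ← ha']⟩
  obtain ⟨a', rfl⟩ := key z
  exact ⟨a', by rw [map_smul, map_smul, h0Equiv_H0BCMap_one_tmul]⟩

include h in
/-- **`sectionIdeal` commutes with base change** when `σ` generates `H⁰(L)` and
`A' ⊗ H⁰(L) → H⁰(L_{A'})` is onto. -/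
theorem span_dual_apply_liftData [Module.Invertible R0 L.N0] (σ : L.H0)
    (hgen : ∀ τ : L.H0, ∃ a : A, τ = a • σ) (hsurj : Function.Surjective (L.H0BCMap A')) :
    Ideal.span {x : R0' | ∃ τ : L'.H0, ∃ φ : Module.Dual R0' L'.N0, x = φ τ.1.1} =
      (Ideal.span {x : R0 | ∃ τ : L.H0, ∃ φ : Module.Dual R0 L.N0, x = φ τ.1.1}).map
        (algebraMap R0 R0') := by
  rw [span_dual_apply_eq_contentIdeal L σ hgen,
    span_dual_apply_eq_contentIdeal L' (liftSection h σ) (liftSection_generates h σ hgen hsurj),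
    contentIdeal_liftSection_fst]

end Generate

end Fermat.Agent.Jac.Chart43
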