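/-
JAC brick A4 (ChartScheme), part (a1): the abstract Hilbert-chart bijection.

For a commutative ring `A`, a commutative `A`-algebra `S` and a family `v : Fin g → S`,
ideals `I` of `S` such that `A^g → S ⧸ I`, `a ↦ ∑ a i • v i`, is bijective correspond
bijectively to pairs `(ψ, e)` of an `A`-algebra map `ψ : S → Mat_g(A)` and a vector `e : A^g`
with `ψ (v i) *ᵥ e = eᵢ` (the `i`-th standard basis vector).
-/
import Mathlib

namespace Fermat.Agent.Jac.Chart43

open Matrix

section Abstract

variable {A : Type*} [CommRing A] {S : Type*} [CommRing S] [Algebra A S] {g : ℕ}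

/-- The `A`-linear map `A^g → S ⧸ I`, `a ↦ ∑ a i • v i`. -/
noncomputable def vmap (v : Fin g → S) (I : Ideal S) : (Fin g → A) →ₗ[A] S ⧸ I :=
  (Ideal.Quotient.mkₐ A I).toLinearMap ∘ₗ Fintype.linearCombination A v

theorem vmap_apply (v : Fin g → S) (I : Ideal S) (a : Fin g → A) :
    vmap v I a = Ideal.Quotient.mk I (∑ i, a i • v i) := by
  simp [vmap, Fintype.linearCombination_apply]

theorem vmap_single (v : Fin g → S) (I : Ideal S) (i : Fin g) :
    vmap (A := A) v I (Pi.single i 1) = Ideal.Quotient.mk I (v i) := by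
  classical
  rw [vmap_apply]
  congr 1
  rw [Finset.sum_eq_single i]
  · simp
  · intro j _ hj
    simp [Pi.single_eq_of_ne hj]
  · simp

/-- `I` is a point of the chart attached to `v`: the classes of the `v i` form an
`A`-basis of `S ⧸ I`. -/
def IsChartIdeal (A : Type*) [CommRing A] {S : Type*} [CommRing S] [Algebra A S] {g : ℕ}
    (v : Fin g → S) (I : Ideal S) : Prop :=
  Function.Bijective (vmap (A := A) v I)

/-- A "matrix point": an `A`-algebra map `ψ : S → Mat_g(A)` and a vector `e` with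
`ψ (v i) *ᵥ e = eᵢ`. -/
structure MatPt (A : Type*) [CommRing A] (S : Type*) [CommRing S] [Algebra A S] {g : ℕ}
    (v : Fin g → S) where
  /-- the action of `S` on `A^g` -/
  ψ : S →ₐ[A] Matrix (Fin g) (Fin g) A
  /-- the image of `1` -/
  e : Fin g → A
  hv : ∀ i, ψ (v i) *ᵥ e = Pi.single i 1

theorem MatPt.ext' {v : Fin g → S} {P P' : MatPt A S v} (hψ : P.ψ = P'.ψ) (he : P.e = P'.e) :
    P = P' := by
  cases P; cases P'; simp only at hψ he; subst hψ; subst he; rfl

namespace MatPt

variable {v : Fin g → S} (P : MatPt A S v)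

/-- the orbit map `s ↦ ψ s *ᵥ e`. -/
noncomputable def orbit : S →ₗ[A] (Fin g → A) where
  toFun s := P.ψ s *ᵥ P.e
  map_add' s t := by simp [Matrix.add_mulVec]
  map_smul' a s := by simp [Matrix.smul_mulVec]

theorem orbit_apply (s : S) : P.orbit s = P.ψ s *ᵥ P.e := rfl

theorem orbit_mul (s t : S) : P.orbit (s * t) = P.ψ s *ᵥ P.orbit t := by
  simp [orbit_apply, Matrix.mulVec_mulVec]

theorem orbit_v (i : Fin g) : P.orbit (v i) = Pi.single i 1 := P.hv i

theorem orbit_linearCombination (a : Fin g → A) : P.orbit (∑ i, a i • v i) = a := by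
  classical
  rw [map_sum]
  simp_rw [map_smul, orbit_v]
  ext j
  simp [Finset.sum_apply, Pi.single_apply]

/-- the ideal attached to a matrix point: the kernel of the orbit map. -/
noncomputable def toIdeal : Ideal S where
  carrier := {s | P.orbit s = 0}
  add_mem' {s t} hs ht := by
    change P.orbit s = 0 at hs
    change P.orbit t = 0 at ht
    change P.orbit (s + t) = 0
    rw [map_add, hs, ht, add_zero]
  zero_mem' := by simp
  smul_mem' c s hs := by
    change P.orbit s = 0 at hs
    change P.orbit (c * s) = 0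
    rw [orbit_mul, hs, Matrix.mulVec_zero]

theorem mem_toIdeal {s : S} : s ∈ P.toIdeal ↔ P.orbit s = 0 := Iff.rfl

/-- the orbit map descends to the quotient by `toIdeal`. -/
noncomputable def orbitBar : S ⧸ P.toIdeal →ₗ[A] (Fin g → A) :=
  Submodule.liftQ (P.toIdeal.restrictScalars A) P.orbit (fun _ hs => hs)

theorem orbitBar_mk (s : S) : P.orbitBar (Ideal.Quotient.mk _ s) = P.orbit s := rfl

theorem orbitBar_injective : Function.Injective P.orbitBar := by
  rw [← LinearMap.ker_eq_bot, LinearMap.ker_eq_bot']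
  intro x hx
  obtain ⟨s, rfl⟩ := Ideal.Quotient.mk_surjective x
  rw [orbitBar_mk] at hx
  exact Ideal.Quotient.eq_zero_iff_mem.mpr hx

theorem orbitBar_vmap (a : Fin g → A) : P.orbitBar (vmap v P.toIdeal a) = a := by
  rw [vmap_apply, orbitBar_mk, orbit_linearCombination]

theorem isChartIdeal_toIdeal : IsChartIdeal A v P.toIdeal := by
  refine ⟨fun a b hab => ?_, fun x => ⟨P.orbitBar x, ?_⟩⟩
  · have := congrArg P.orbitBar hab
    rwa [orbitBar_vmap, orbitBar_vmap] at this
  · apply P.orbitBar_injective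
    rw [orbitBar_vmap]

end MatPt

namespace IsChartIdeal

variable {v : Fin g → S} {I : Ideal S} (h : IsChartIdeal A v I)

/-- the basis isomorphism `A^g ≃ S ⧸ I`. -/
noncomputable def equiv : (Fin g → A) ≃ₗ[A] S ⧸ I := LinearEquiv.ofBijective _ h

theorem equiv_apply (a : Fin g → A) : h.equiv a = vmap v I a := rfl

/-- the matrix action of `S` on `A^g ≃ S ⧸ I`. -/
noncomputable def ψ : S →ₐ[A] Matrix (Fin g) (Fin g) A :=
  (LinearMap.toMatrixAlgEquiv' : _ ≃ₐ[A] Matrix (Fin g) (Fin g) A).toAlgHom.comp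
    ((h.equiv.symm.conjAlgEquiv A).toAlgHom.comp
      ((Algebra.lmul A (S ⧸ I)).comp (Ideal.Quotient.mkₐ A I)))

theorem ψ_mulVec (s : S) (w : Fin g → A) :
    h.ψ s *ᵥ w = h.equiv.symm (Ideal.Quotient.mk I s * h.equiv w) := by
  simp [ψ, LinearMap.toMatrixAlgEquiv', LinearEquiv.conjAlgEquiv_apply]

/-- the vector corresponding to `1`. -/
noncomputable def e : Fin g → A := h.equiv.symm 1

/-- the matrix point attached to a chart ideal. -/
noncomputable def toMatPt : MatPt A S v where
  ψ := h.ψ
  e := h.e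
  hv i := by
    rw [ψ_mulVec, e, LinearEquiv.apply_symm_apply, mul_one, LinearEquiv.symm_apply_eq,
      equiv_apply, vmap_single]

theorem toMatPt_orbit (s : S) : h.toMatPt.orbit s = h.equiv.symm (Ideal.Quotient.mk I s) := by
  rw [MatPt.orbit_apply]
  show h.ψ s *ᵥ h.e = _
  rw [ψ_mulVec, e, LinearEquiv.apply_symm_apply, mul_one]

theorem toIdeal_toMatPt : h.toMatPt.toIdeal = I := by
  ext s
  rw [MatPt.mem_toIdeal, toMatPt_orbit, LinearEquiv.map_eq_zero_iff,
    Ideal.Quotient.eq_zero_iff_mem]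

end IsChartIdeal

theorem MatPt.toMatPt_toIdeal {v : Fin g → S} (P : MatPt A S v) :
    P.isChartIdeal_toIdeal.toMatPt = P := by
  have key : ∀ x : S ⧸ P.toIdeal, P.isChartIdeal_toIdeal.equiv.symm x = P.orbitBar x := by
    intro x
    rw [LinearEquiv.symm_apply_eq, IsChartIdeal.equiv_apply]
    apply P.orbitBar_injective
    rw [orbitBar_vmap]
  apply MatPt.ext'
  · apply AlgHom.ext
    intro s
    show P.isChartIdeal_toIdeal.ψ s = P.ψ s
    apply Matrix.toLin'.injective
    apply LinearMap.ext
    intro w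
    rw [Matrix.toLin'_apply, Matrix.toLin'_apply, IsChartIdeal.ψ_mulVec, key]
    obtain ⟨t, ht⟩ := Ideal.Quotient.mk_surjective (P.isChartIdeal_toIdeal.equiv w)
    rw [← ht, ← map_mul, orbitBar_mk, orbit_mul, ← orbitBar_mk, ht, ← key,
      LinearEquiv.symm_apply_apply]
  · show P.isChartIdeal_toIdeal.e = P.e
    rw [IsChartIdeal.e, key, ← map_one (Ideal.Quotient.mk P.toIdeal), orbitBar_mk, orbit_apply,
      map_one, Matrix.one_mulVec]

/-- **Abstract Hilbert-chart bijection**: chart ideals of `S` for the family `v` correspond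
bijectively to matrix points. -/
noncomputable def chartIdealEquivMatPt (A : Type*) [CommRing A] {S : Type*} [CommRing S]
    [Algebra A S] {g : ℕ} (v : Fin g → S) :
    {I : Ideal S // IsChartIdeal A v I} ≃ MatPt A S v where
  toFun I := I.2.toMatPt
  invFun P := ⟨P.toIdeal, P.isChartIdeal_toIdeal⟩
  left_inv I := Subtype.ext I.2.toIdeal_toMatPt
  right_inv P := P.toMatPt_toIdeal

end Abstract

end Fermat.Agent.Jac.Chart43
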