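/-
JAC brick A4 (ChartScheme), part (a2): the Hilbert-chart functor of a `k`-algebra `B`
and a family `v : Fin g → B`.

For a `k`-algebra `A`, chart ideals of `A ⊗[k] B` (ideals `I` such that the classes of
`1 ⊗ v i` form an `A`-basis of the quotient) correspond bijectively to pairs `(ψ, e)` of a
`k`-algebra map `ψ : B → Mat_g(A)` and a vector `e : A^g` with `ψ (v i) *ᵥ e = eᵢ`,
naturally in `A`.
-/
import Fermat.Agent.Jac.Chart43.HilbPts

namespace Fermat.Agent.Jac.Chart43

open Matrix TensorProduct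

section Tensor

variable (k : Type*) [CommRing k] (B : Type*) [CommRing B] [Algebra k B] {g : ℕ}

/-- A `B`-point with values in `A`: a `k`-algebra map `ψ : B → Mat_g(A)` and a vector `e`
with `ψ (v i) *ᵥ e = eᵢ`. -/
structure BPt (v : Fin g → B) (A : Type*) [CommRing A] [Algebra k A] where
  /-- the action of `B` on `A^g` -/
  ψ : B →ₐ[k] Matrix (Fin g) (Fin g) A
  /-- the image of `1` -/
  e : Fin g → A
  hv : ∀ i, ψ (v i) *ᵥ e = Pi.single i 1

variable {k B}

theorem BPt.ext' {v : Fin g → B} {A : Type*} [CommRing A] [Algebra k A] {P P' : BPt k B v A}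
    (hψ : P.ψ = P'.ψ) (he : P.e = P'.e) : P = P' := by
  cases P; cases P'; simp only at hψ he; subst hψ; subst he; rfl

/-- the family `1 ⊗ v i` in `A ⊗[k] B`. -/
def vT (v : Fin g → B) (A : Type*) [CommRing A] [Algebra k A] : Fin g → A ⊗[k] B :=
  fun i => 1 ⊗ₜ[k] v i

variable {v : Fin g → B} {A : Type*} [CommRing A] [Algebra k A]

/-- functoriality of `B`-points in `A`. -/
noncomputable def BPt.map {A' : Type*} [CommRing A'] [Algebra k A'] (f : A →ₐ[k] A')
    (P : BPt k B v A) : BPt k B v A' where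
  ψ := f.mapMatrix.comp P.ψ
  e := fun i => f (P.e i)
  hv i := by
    classical
    have h1 : f.mapMatrix (P.ψ (v i)) *ᵥ (fun j => f (P.e j)) =
        fun j => f ((P.ψ (v i) *ᵥ P.e) j) := by
      have := RingHom.map_mulVec (f : A →+* A') (P.ψ (v i)) P.e
      funext j
      have hj := this j
      simpa [AlgHom.mapMatrix_apply, Function.comp_def] using hj.symm
    rw [AlgHom.comp_apply, h1, P.hv i]
    funext j
    by_cases hj : j = i
    · subst hj; simp
    · simp [Pi.single_eq_of_ne hj]

theorem BPt.map_id (P : BPt k B v A) : P.map (AlgHom.id k A) = P := by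
  apply BPt.ext'
  · apply AlgHom.ext; intro b
    ext i j
    simp [BPt.map]
  · rfl

theorem BPt.map_comp {A' A'' : Type*} [CommRing A'] [Algebra k A'] [CommRing A'']
    [Algebra k A''] (f : A →ₐ[k] A') (f' : A' →ₐ[k] A'') (P : BPt k B v A) :
    P.map (f'.comp f) = (P.map f).map f' := by
  apply BPt.ext'
  · apply AlgHom.ext; intro b
    ext i j
    simp [BPt.map, AlgHom.mapMatrix_apply]
  · rfl

/-- from a `B`-point to a matrix point of `A ⊗[k] B`. -/
noncomputable def BPt.toMatPt (P : BPt k B v A) : MatPt A (A ⊗[k] B) (vT v A) where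
  ψ := Algebra.TensorProduct.lift (Algebra.ofId A (Matrix (Fin g) (Fin g) A)) P.ψ
    (fun a b => by
      rw [Algebra.ofId_apply]
      exact Algebra.commute_algebraMap_left a (P.ψ b))
  e := P.e
  hv i := by
    rw [vT, Algebra.TensorProduct.lift_tmul, map_one, one_mul]
    exact P.hv i

theorem BPt.toMatPt_ψ_tmul (P : BPt k B v A) (a : A) (b : B) :
    P.toMatPt.ψ (a ⊗ₜ[k] b) = a • P.ψ b := by
  unfold BPt.toMatPt
  simp only
  rw [Algebra.TensorProduct.lift_tmul, Algebra.ofId_apply, Algebra.smul_def]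

theorem BPt.toMatPt_orbit_tmul (P : BPt k B v A) (a : A) (b : B) :
    P.toMatPt.orbit (a ⊗ₜ[k] b) = a • (P.ψ b *ᵥ P.e) := by
  rw [MatPt.orbit_apply, BPt.toMatPt_ψ_tmul, Matrix.smul_mulVec]
  rfl

/-- from a matrix point of `A ⊗[k] B` to a `B`-point. -/
noncomputable def MatPt.toBPt (P : MatPt A (A ⊗[k] B) (vT v A)) : BPt k B v A where
  ψ := (P.ψ.restrictScalars k).comp Algebra.TensorProduct.includeRight
  e := P.e
  hv i := P.hv i

/-- matrix points of `A ⊗[k] B` are the same as `B`-points. -/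
noncomputable def matPtEquivBPt (v : Fin g → B) (A : Type*) [CommRing A] [Algebra k A] :
    MatPt A (A ⊗[k] B) (vT v A) ≃ BPt k B v A where
  toFun P := P.toBPt
  invFun P := P.toMatPt
  left_inv P := by
    apply MatPt.ext'
    · apply Algebra.TensorProduct.ext'
      intro a b
      rw [BPt.toMatPt_ψ_tmul]
      show a • P.ψ ((1 : A) ⊗ₜ[k] b) = _
      rw [← map_smul, TensorProduct.smul_tmul', smul_eq_mul, mul_one]
    · rfl
  right_inv P := by
    apply BPt.ext'
    · apply AlgHom.ext; intro b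
      show P.toMatPt.ψ ((1 : A) ⊗ₜ[k] b) = _
      rw [BPt.toMatPt_ψ_tmul, one_smul]
    · rfl

/-- The Hilbert-chart functor on objects: chart ideals of `A ⊗[k] B` for `1 ⊗ v`. -/
def HilbPt (k : Type*) [CommRing k] {B : Type*} [CommRing B] [Algebra k B] {g : ℕ}
    (v : Fin g → B) (A : Type*) [CommRing A] [Algebra k A] : Type _ :=
  {I : Ideal (A ⊗[k] B) // IsChartIdeal A (vT v A) I}

/-- **Hilbert-chart bijection** for `A ⊗[k] B`. -/
noncomputable def hilbPtEquivBPt (v : Fin g → B) (A : Type*) [CommRing A] [Algebra k A] :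
    HilbPt k v A ≃ BPt k B v A :=
  (chartIdealEquivMatPt A (vT v A)).trans (matPtEquivBPt v A)

/-- the ideal of a `B`-point. -/
noncomputable def BPt.toIdeal (P : BPt k B v A) : Ideal (A ⊗[k] B) := P.toMatPt.toIdeal

theorem BPt.isChartIdeal_toIdeal (P : BPt k B v A) : IsChartIdeal A (vT v A) P.toIdeal :=
  P.toMatPt.isChartIdeal_toIdeal

theorem hilbPtEquivBPt_symm_coe (P : BPt k B v A) :
    ((hilbPtEquivBPt v A).symm P).1 = P.toIdeal := rfl

section Naturality

variable {A' : Type*} [CommRing A'] [Algebra k A'] (f : A →ₐ[k] A')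

/-- the base change map `A ⊗[k] B → A' ⊗[k] B`. -/
noncomputable def baseMap : A ⊗[k] B →ₐ[k] A' ⊗[k] B :=
  Algebra.TensorProduct.map f (AlgHom.id k B)

theorem baseMap_tmul (a : A) (b : B) : baseMap f (a ⊗ₜ[k] b) = f a ⊗ₜ[k] b := by
  simp [baseMap]

theorem BPt.map_orbit (P : BPt k B v A) (s : A ⊗[k] B) :
    (P.map f).toMatPt.orbit (baseMap f s) = fun j => f (P.toMatPt.orbit s j) := by
  induction s using TensorProduct.induction_on with
  | zero =>
    funext j
    simp
  | tmul a b =>
    rw [baseMap_tmul, BPt.toMatPt_orbit_tmul, BPt.toMatPt_orbit_tmul]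
    have h1 : f.mapMatrix (P.ψ b) *ᵥ (fun j => f (P.e j)) =
        fun j => f ((P.ψ b *ᵥ P.e) j) := by
      have := RingHom.map_mulVec (f : A →+* A') (P.ψ b) P.e
      funext j
      have hj := this j
      simpa [AlgHom.mapMatrix_apply, Function.comp_def] using hj.symm
    show f a • (f.mapMatrix (P.ψ b) *ᵥ (fun j => f (P.e j))) = _
    rw [h1]
    funext j
    simp
  | add x y hx hy =>
    rw [map_add, map_add, hx, hy]
    funext j
    simp

theorem BPt.map_toIdeal_le (P : BPt k B v A) :
    P.toIdeal.map (baseMap f) ≤ (P.map f).toIdeal := by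
  rw [Ideal.map_le_iff_le_comap]
  intro s hs
  rw [Ideal.mem_comap]
  change P.toMatPt.orbit s = 0 at hs
  change (P.map f).toMatPt.orbit (baseMap f s) = 0
  rw [BPt.map_orbit, hs]
  funext j
  simp

/-- every element of `A' ⊗[k] B` is congruent to a combination of the `1 ⊗ v i` modulo the
extension of a chart ideal of `A ⊗[k] B`. -/
theorem exists_sub_mem_map {I : Ideal (A ⊗[k] B)} (hI : IsChartIdeal A (vT v A) I)
    (x : A' ⊗[k] B) :
    ∃ a' : Fin g → A', x - ∑ i, a' i • vT v A' i ∈ I.map (baseMap f) := by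
  induction x using TensorProduct.induction_on with
  | zero => exact ⟨0, by simp⟩
  | tmul a' b =>
    obtain ⟨a, ha⟩ := hI.2 (Ideal.Quotient.mk I ((1 : A) ⊗ₜ[k] b))
    rw [vmap_apply, Ideal.Quotient.eq, ← Ideal.neg_mem_iff, neg_sub] at ha
    have h2 := Ideal.mem_map_of_mem (baseMap f) ha
    have h3 := Ideal.mul_mem_left _ (a' ⊗ₜ[k] (1 : B)) h2
    refine ⟨fun i => a' * f (a i), ?_⟩
    convert h3 using 1
    rw [map_sub, map_sum, baseMap_tmul, map_one, mul_sub, Algebra.TensorProduct.tmul_mul_tmul,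
      mul_one, one_mul, Finset.mul_sum]
    congr 1
    apply Finset.sum_congr rfl
    intro i _
    rw [vT, vT, TensorProduct.smul_tmul', TensorProduct.smul_tmul', smul_eq_mul, smul_eq_mul,
      mul_one, mul_one, baseMap_tmul, Algebra.TensorProduct.tmul_mul_tmul, one_mul]
  | add x y hx hy =>
    obtain ⟨a1, h1⟩ := hx
    obtain ⟨a2, h2⟩ := hy
    refine ⟨a1 + a2, ?_⟩
    have := Ideal.add_mem _ h1 h2
    convert this using 1
    simp only [Pi.add_apply, add_smul, Finset.sum_add_distrib]
    ring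

/-- **Naturality**: the ideal of the image point is the extension of the ideal. -/
theorem BPt.map_toIdeal (P : BPt k B v A) :
    (P.map f).toIdeal = P.toIdeal.map (baseMap f) := by
  apply le_antisymm _ (P.map_toIdeal_le f)
  intro x hx
  obtain ⟨a', ha'⟩ := exists_sub_mem_map f P.isChartIdeal_toIdeal x
  have h1 : (P.map f).toMatPt.orbit (x - ∑ i, a' i • vT v A' i) = 0 :=
    P.map_toIdeal_le f ha'
  change (P.map f).toMatPt.orbit x = 0 at hx
  rw [map_sub, hx, zero_sub, neg_eq_zero, MatPt.orbit_linearCombination] at h1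
  subst h1
  simpa using ha'

/-- the extension of a chart ideal is a chart ideal. -/
theorem IsChartIdeal.map {I : Ideal (A ⊗[k] B)} (hI : IsChartIdeal A (vT v A) I) :
    IsChartIdeal A' (vT v A') (I.map (baseMap f)) := by
  have h1 : ((hilbPtEquivBPt v A) ⟨I, hI⟩).toIdeal = I := by
    have := (hilbPtEquivBPt v A).symm_apply_apply ⟨I, hI⟩
    exact congrArg Subtype.val this
  rw [← h1, ← BPt.map_toIdeal]
  exact BPt.isChartIdeal_toIdeal _

/-- functoriality of the Hilbert-chart functor. -/
noncomputable def HilbPt.map (I : HilbPt k v A) : HilbPt k v A' :=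
  ⟨I.1.map (baseMap f), IsChartIdeal.map f I.2⟩

/-- **Naturality** of the Hilbert-chart bijection. -/
theorem hilbPtEquivBPt_map (I : HilbPt k v A) :
    hilbPtEquivBPt v A' (I.map f) = (hilbPtEquivBPt v A I).map f := by
  rw [← Equiv.eq_symm_apply]
  apply Subtype.ext
  rw [hilbPtEquivBPt_symm_coe, BPt.map_toIdeal]
  show I.1.map (baseMap f) = _
  congr 1
  have := (hilbPtEquivBPt v A).symm_apply_apply I
  exact (congrArg Subtype.val this).symm

end Naturality

end Tensor

end Fermat.Agent.Jac.Chart43
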