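/-
JAC brick A4 (ChartScheme), part (a3): the representing ring of the Hilbert-chart functor.

For a finitely generated `k`-algebra `B` presented as a quotient `π : k[x₁..xₙ] → B` and
polynomials `p i` (`i : Fin g`) with classes `v i = π (p i)`, the functor
`A ↦ HilbPt k v A` (chart ideals of `A ⊗[k] B`) is represented by an explicit finitely generated
`k`-algebra `D.Ring`: generic commuting `g × g` matrices `X₁..Xₙ` and a generic vector `E`,
subject to `r(X) = 0` for `r ∈ ker π` and `pᵢ(X) E = eᵢ`.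
-/
import Fermat.Agent.Jac.Chart43.HilbTensor

namespace Fermat.Agent.Jac.Chart43

open Matrix

section CommMat

variable {k : Type*} [CommRing k] {A : Type*} [CommRing A] [Algebra k A] {n g : ℕ}

open scoped IsMulCommutative in
/-- evaluation of polynomials at a commuting family of matrices. -/
noncomputable def evalHom (M : Fin n → Matrix (Fin g) (Fin g) A)
    (hM : ∀ i j, M i * M j = M j * M i) :
    MvPolynomial (Fin n) k →ₐ[k] Matrix (Fin g) (Fin g) A :=
  haveI := Algebra.isMulCommutative_adjoin k (s := Set.range M)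
    (by rintro _ ⟨i, rfl⟩ _ ⟨j, rfl⟩; exact hM i j)
  (Subalgebra.val (Algebra.adjoin k (Set.range M))).comp
    (MvPolynomial.aeval (fun i =>
      (⟨M i, Algebra.subset_adjoin ⟨i, rfl⟩⟩ : Algebra.adjoin k (Set.range M))))

theorem evalHom_X (M : Fin n → Matrix (Fin g) (Fin g) A)
    (hM : ∀ i j, M i * M j = M j * M i) (i : Fin n) :
    evalHom (k := k) M hM (MvPolynomial.X i) = M i := by
  simp [evalHom]

/-- an algebra map out of a polynomial ring is the evaluation at the images of the variables. -/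
theorem eq_evalHom (F : MvPolynomial (Fin n) k →ₐ[k] Matrix (Fin g) (Fin g) A)
    (M : Fin n → Matrix (Fin g) (Fin g) A) (hM : ∀ i j, M i * M j = M j * M i)
    (h : ∀ i, F (MvPolynomial.X i) = M i) : F = evalHom M hM := by
  apply MvPolynomial.algHom_ext
  intro i
  rw [h, evalHom_X]

theorem mapMatrix_mulVec {A' : Type*} [CommRing A'] [Algebra k A'] (f : A →ₐ[k] A')
    (N : Matrix (Fin g) (Fin g) A) (w : Fin g → A) :
    f.mapMatrix N *ᵥ (fun j => f (w j)) = fun j => f ((N *ᵥ w) j) := by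
  have := RingHom.map_mulVec (f : A →+* A') N w
  funext j
  have hj := this j
  simpa [AlgHom.mapMatrix_apply, Function.comp_def] using hj.symm

end CommMat

section LiftSurj

variable {k : Type*} [CommRing k] {P : Type*} [CommRing P] [Algebra k P] {B : Type*} [CommRing B]
  [Algebra k B] {C : Type*} [Semiring C] [Algebra k C]

/-- factor an algebra map through a surjection. -/
noncomputable def liftSurj (π : P →ₐ[k] B) (hπ : Function.Surjective π) (f : P →ₐ[k] C)
    (h : ∀ x, π x = 0 → f x = 0) : B →ₐ[k] C :=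
  (Ideal.Quotient.liftₐ (RingHom.ker π) f (fun a ha => h a ha)).comp
    (Ideal.quotientKerAlgEquivOfSurjective hπ).symm.toAlgHom

theorem liftSurj_apply (π : P →ₐ[k] B) (hπ : Function.Surjective π) (f : P →ₐ[k] C)
    (h : ∀ x, π x = 0 → f x = 0) (x : P) : liftSurj π hπ f h (π x) = f x := by
  have h1 : (Ideal.quotientKerAlgEquivOfSurjective hπ).symm (π x) =
      Ideal.Quotient.mk (RingHom.ker π) x := by
    rw [AlgEquiv.symm_apply_eq]
    rfl
  have h2 : liftSurj π hπ f h (π x) = Ideal.Quotient.liftₐ (RingHom.ker π) f (fun a ha => h a ha)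
      ((Ideal.quotientKerAlgEquivOfSurjective hπ).symm (π x)) := rfl
  rw [h2, h1]
  rfl

end LiftSurj

/-- index type of the generic coordinates: matrix entries and vector entries. -/
abbrev Gen (n g : ℕ) : Type := (Fin n × Fin g × Fin g) ⊕ Fin g

/-- presentation data of a chart: a surjection from a polynomial ring and `g` polynomials. -/
structure ChartData (k : Type*) [CommRing k] (B : Type*) [CommRing B] [Algebra k B] (g : ℕ) where
  /-- number of algebra generators -/
  n : ℕ
  /-- the presentation -/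
  π : MvPolynomial (Fin n) k →ₐ[k] B
  surj : Function.Surjective π
  /-- polynomial representatives of the basis candidates -/
  p : Fin g → MvPolynomial (Fin n) k

namespace ChartData

variable {k : Type*} [CommRing k] {B : Type*} [CommRing B] [Algebra k B] {g : ℕ}
  (D : ChartData k B g)

/-- the basis candidates in `B`. -/
noncomputable def v : Fin g → B := fun i => D.π (D.p i)

/-- the polynomial ring in the generic coordinates. -/
abbrev Poly : Type _ := MvPolynomial (Gen D.n g) k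

/-- generic matrices over the polynomial ring. -/
noncomputable def X0 (i : Fin D.n) : Matrix (Fin g) (Fin g) D.Poly :=
  Matrix.of fun a b => MvPolynomial.X (Sum.inl (i, a, b))

/-- the ideal generated by the entries of the commutators of the generic matrices. -/
noncomputable def commIdeal : Ideal D.Poly :=
  Ideal.span {x | ∃ i j a b, x = (D.X0 i * D.X0 j - D.X0 j * D.X0 i) a b}

/-- the ring of generic commuting matrices (and a generic vector). -/
def R1 : Type _ := D.Poly ⧸ D.commIdeal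

noncomputable instance instCommRingR1 : CommRing D.R1 :=
  inferInstanceAs (CommRing (D.Poly ⧸ D.commIdeal))

noncomputable instance instAlgebraR1 : Algebra k D.R1 :=
  inferInstanceAs (Algebra k (D.Poly ⧸ D.commIdeal))

/-- the quotient map onto `R1`. -/
noncomputable def mk1 : D.Poly →ₐ[k] D.R1 := Ideal.Quotient.mkₐ k D.commIdeal

theorem mk1_surjective : Function.Surjective D.mk1 := Ideal.Quotient.mkₐ_surjective k D.commIdeal

theorem mk1_eq_zero_iff (x : D.Poly) : D.mk1 x = 0 ↔ x ∈ D.commIdeal :=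
  Ideal.Quotient.eq_zero_iff_mem

/-- descend an algebra map to `R1`. -/
noncomputable def lift1 {A : Type*} [CommRing A] [Algebra k A] (f : D.Poly →ₐ[k] A)
    (hf : ∀ x ∈ D.commIdeal, f x = 0) : D.R1 →ₐ[k] A :=
  Ideal.Quotient.liftₐ D.commIdeal f hf

theorem lift1_mk1 {A : Type*} [CommRing A] [Algebra k A] (f : D.Poly →ₐ[k] A)
    (hf : ∀ x ∈ D.commIdeal, f x = 0) (x : D.Poly) : D.lift1 f hf (D.mk1 x) = f x := rfl

theorem algHom_ext1 {A : Type*} [CommRing A] [Algebra k A] {f f' : D.R1 →ₐ[k] A}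
    (h : f.comp D.mk1 = f'.comp D.mk1) : f = f' :=
  Ideal.Quotient.algHom_ext k h

/-- the generic commuting matrices. -/
noncomputable def X1 (i : Fin D.n) : Matrix (Fin g) (Fin g) D.R1 :=
  D.mk1.mapMatrix (D.X0 i)

theorem X1_comm (i j : Fin D.n) : D.X1 i * D.X1 j = D.X1 j * D.X1 i := by
  rw [← sub_eq_zero, X1, X1, ← map_mul, ← map_mul, ← map_sub]
  ext a b
  rw [AlgHom.mapMatrix_apply, Matrix.map_apply, Matrix.zero_apply, mk1_eq_zero_iff]
  exact Ideal.subset_span ⟨i, j, a, b, rfl⟩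

/-- the generic vector over `R1`. -/
noncomputable def E1 : Fin g → D.R1 :=
  fun a => D.mk1 (MvPolynomial.X (Sum.inr a))

/-- evaluation at the generic commuting matrices. -/
noncomputable def ev1 : MvPolynomial (Fin D.n) k →ₐ[k] Matrix (Fin g) (Fin g) D.R1 :=
  evalHom D.X1 D.X1_comm

/-- the relations `r(X) = 0` for `r ∈ ker π`. -/
def relSet1 : Set D.R1 := {x | ∃ r, D.π r = 0 ∧ ∃ a b, x = D.ev1 r a b}

/-- the relations `pᵢ(X) E = eᵢ`. -/
def relSet2 : Set D.R1 :=
  {x | ∃ i a, x = (D.ev1 (D.p i) *ᵥ D.E1 - (Pi.single i 1 : Fin g → D.R1)) a}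

/-- the ideal of relations: `r(X) = 0` for `r ∈ ker π`, and `pᵢ(X) E = eᵢ`. -/
noncomputable def relIdeal : Ideal D.R1 := Ideal.span (D.relSet1 ∪ D.relSet2)

theorem mem_relIdeal_1 (r : MvPolynomial (Fin D.n) k) (hr : D.π r = 0) (a b : Fin g) :
    D.ev1 r a b ∈ D.relIdeal :=
  Ideal.subset_span (Set.mem_union_left _ ⟨r, hr, a, b, rfl⟩)

theorem mem_relIdeal_2 (i a : Fin g) :
    (D.ev1 (D.p i) *ᵥ D.E1 - (Pi.single i 1 : Fin g → D.R1)) a ∈ D.relIdeal :=
  Ideal.subset_span (Set.mem_union_right _ ⟨i, a, rfl⟩)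

/-- **The chart ring**: the representing ring of the Hilbert-chart functor. -/
def Ring : Type _ := D.R1 ⧸ D.relIdeal

noncomputable instance instCommRingRing : CommRing D.Ring :=
  inferInstanceAs (CommRing (D.R1 ⧸ D.relIdeal))

noncomputable instance instAlgebraRing : Algebra k D.Ring :=
  inferInstanceAs (Algebra k (D.R1 ⧸ D.relIdeal))

/-- the quotient map onto the chart ring. -/
noncomputable def mk2 : D.R1 →ₐ[k] D.Ring := Ideal.Quotient.mkₐ k D.relIdeal

theorem mk2_surjective : Function.Surjective D.mk2 := Ideal.Quotient.mkₐ_surjective k D.relIdeal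

theorem mk2_eq_zero_iff (x : D.R1) : D.mk2 x = 0 ↔ x ∈ D.relIdeal :=
  Ideal.Quotient.eq_zero_iff_mem

/-- descend an algebra map to the chart ring. -/
noncomputable def lift2 {A : Type*} [CommRing A] [Algebra k A] (f : D.R1 →ₐ[k] A)
    (hf : ∀ x ∈ D.relIdeal, f x = 0) : D.Ring →ₐ[k] A :=
  Ideal.Quotient.liftₐ D.relIdeal f hf

theorem lift2_mk2 {A : Type*} [CommRing A] [Algebra k A] (f : D.R1 →ₐ[k] A)
    (hf : ∀ x ∈ D.relIdeal, f x = 0) (x : D.R1) : D.lift2 f hf (D.mk2 x) = f x := rfl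

theorem algHom_ext2 {A : Type*} [CommRing A] [Algebra k A] {f f' : D.Ring →ₐ[k] A}
    (h : f.comp D.mk2 = f'.comp D.mk2) : f = f' :=
  Ideal.Quotient.algHom_ext k h

/-- the universal commuting matrices. -/
noncomputable def X2 (i : Fin D.n) : Matrix (Fin g) (Fin g) D.Ring :=
  D.mk2.mapMatrix (D.X1 i)

theorem X2_comm (i j : Fin D.n) : D.X2 i * D.X2 j = D.X2 j * D.X2 i := by
  have := congrArg D.mk2.mapMatrix (D.X1_comm i j)
  rwa [map_mul, map_mul] at this

/-- evaluation at the universal commuting matrices. -/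
noncomputable def ev2 : MvPolynomial (Fin D.n) k →ₐ[k] Matrix (Fin g) (Fin g) D.Ring :=
  evalHom D.X2 D.X2_comm

theorem ev2_eq : D.ev2 = D.mk2.mapMatrix.comp D.ev1 := by
  symm
  refine eq_evalHom _ D.X2 D.X2_comm (fun i => ?_)
  rw [AlgHom.comp_apply, ev1, evalHom_X, X2]

theorem ev2_eq_zero (r : MvPolynomial (Fin D.n) k) (hr : D.π r = 0) : D.ev2 r = 0 := by
  rw [ev2_eq, AlgHom.comp_apply]
  ext a b
  rw [AlgHom.mapMatrix_apply, Matrix.map_apply, Matrix.zero_apply, mk2_eq_zero_iff]
  exact D.mem_relIdeal_1 r hr a b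

/-- the universal action of `B`. -/
noncomputable def ψu : B →ₐ[k] Matrix (Fin g) (Fin g) D.Ring :=
  liftSurj D.π D.surj D.ev2 D.ev2_eq_zero

theorem ψu_π (x : MvPolynomial (Fin D.n) k) : D.ψu (D.π x) = D.ev2 x :=
  liftSurj_apply _ _ _ _ x

/-- the universal vector. -/
noncomputable def eu : Fin g → D.Ring :=
  fun a => D.mk2 (D.E1 a)

/-- **The universal point** of the chart. -/
noncomputable def univPt : BPt k B D.v D.Ring where
  ψ := D.ψu
  e := D.eu
  hv i := by
    classical
    have h0 : D.eu = fun a => D.mk2 (D.E1 a) := rfl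
    rw [v, ψu_π, ev2_eq, AlgHom.comp_apply, h0, mapMatrix_mulVec]
    funext a
    have hmem := D.mem_relIdeal_2 i a
    rw [← mk2_eq_zero_iff, Pi.sub_apply, map_sub, sub_eq_zero] at hmem
    rw [hmem]
    by_cases ha : a = i
    · subst ha; simp
    · simp [Pi.single_eq_of_ne ha]

variable {A : Type*} [CommRing A] [Algebra k A]

theorem univPt_map_injective :
    Function.Injective (fun φ : D.Ring →ₐ[k] A => D.univPt.map φ) := by
  intro φ φ' h
  have hψ : ∀ b, φ.mapMatrix (D.ψu b) = φ'.mapMatrix (D.ψu b) := by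
    intro b
    have := congrArg (fun P => P.ψ b) h
    exact this
  have he : ∀ a, φ (D.eu a) = φ' (D.eu a) := by
    intro a
    have := congrArg (fun P => P.e a) h
    exact this
  apply D.algHom_ext2
  apply D.algHom_ext1
  apply MvPolynomial.algHom_ext
  rintro (⟨i, a, b⟩ | a)
  · have h1 := congrFun (congrFun (hψ (D.π (MvPolynomial.X i))) a) b
    rw [ψu_π, ev2, evalHom_X] at h1
    exact h1
  · exact he a

section Surj

variable (Q : BPt k B D.v A)

/-- the matrices of a point. -/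
noncomputable def ptM (i : Fin D.n) : Matrix (Fin g) (Fin g) A := Q.ψ (D.π (MvPolynomial.X i))

theorem ptM_comm (i j : Fin D.n) : D.ptM Q i * D.ptM Q j = D.ptM Q j * D.ptM Q i := by
  show Q.ψ _ * Q.ψ _ = Q.ψ _ * Q.ψ _
  rw [← map_mul Q.ψ, ← map_mul Q.ψ, mul_comm]

theorem ψ_comp_π : Q.ψ.comp D.π = evalHom (D.ptM Q) (D.ptM_comm Q) :=
  eq_evalHom _ _ _ (fun _ => rfl)

/-- the classifying map on the polynomial ring. -/
noncomputable def φ0 : D.Poly →ₐ[k] A :=
  MvPolynomial.aeval (Sum.elim (fun t : Fin D.n × Fin g × Fin g => D.ptM Q t.1 t.2.1 t.2.2) Q.e)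

theorem φ0_X0 (i : Fin D.n) : (D.φ0 Q).mapMatrix (D.X0 i) = D.ptM Q i := by
  ext a b
  simp [φ0, X0, AlgHom.mapMatrix_apply]

theorem φ0_commIdeal (x : D.Poly) (hx : x ∈ D.commIdeal) : D.φ0 Q x = 0 := by
  have : D.commIdeal ≤ RingHom.ker (D.φ0 Q : D.Poly →+* A) := by
    rw [commIdeal, Ideal.span_le]
    rintro _ ⟨i, j, a, b, rfl⟩
    rw [SetLike.mem_coe, RingHom.mem_ker]
    have h1 : (D.φ0 Q).mapMatrix (D.X0 i * D.X0 j - D.X0 j * D.X0 i) = 0 := by
      rw [map_sub, map_mul, map_mul, φ0_X0, φ0_X0, D.ptM_comm Q i j, sub_self]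
    have h2 := congrFun (congrFun h1 a) b
    rwa [AlgHom.mapMatrix_apply, Matrix.map_apply] at h2
  exact this hx

/-- the classifying map on `R1`. -/
noncomputable def φ1 : D.R1 →ₐ[k] A :=
  D.lift1 (D.φ0 Q) (D.φ0_commIdeal Q)

theorem φ1_mk (x : D.Poly) : D.φ1 Q (D.mk1 x) = D.φ0 Q x := rfl

theorem φ1_X1 (i : Fin D.n) : (D.φ1 Q).mapMatrix (D.X1 i) = D.ptM Q i := by
  rw [X1, ← AlgHom.comp_apply, AlgHom.mapMatrix_comp]
  exact D.φ0_X0 Q i

theorem φ1_ev1 : (D.φ1 Q).mapMatrix.comp D.ev1 = Q.ψ.comp D.π := by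
  rw [ψ_comp_π]
  apply eq_evalHom
  intro i
  rw [AlgHom.comp_apply, ev1, evalHom_X, φ1_X1]

theorem φ1_E1 (a : Fin g) : D.φ1 Q (D.E1 a) = Q.e a := by
  rw [E1, φ1_mk]
  simp [φ0]

theorem φ1_relIdeal (x : D.R1) (hx : x ∈ D.relIdeal) : D.φ1 Q x = 0 := by
  have : D.relIdeal ≤ RingHom.ker (D.φ1 Q : D.R1 →+* A) := by
    rw [relIdeal, Ideal.span_le]
    rintro _ (⟨r, hr, a, b, rfl⟩ | ⟨i, a, rfl⟩)
    · rw [SetLike.mem_coe, RingHom.mem_ker]
      have h1 : (D.φ1 Q).mapMatrix (D.ev1 r) = 0 := by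
        rw [← AlgHom.comp_apply, φ1_ev1, AlgHom.comp_apply, hr, map_zero]
      have h2 := congrFun (congrFun h1 a) b
      rwa [AlgHom.mapMatrix_apply, Matrix.map_apply] at h2
    · rw [SetLike.mem_coe, RingHom.mem_ker]
      have h1 : (D.φ1 Q).mapMatrix (D.ev1 (D.p i)) *ᵥ (fun j => D.φ1 Q (D.E1 j)) =
          Pi.single i 1 := by
        rw [← AlgHom.comp_apply, φ1_ev1, AlgHom.comp_apply]
        simp_rw [φ1_E1]
        exact Q.hv i
      rw [mapMatrix_mulVec] at h1
      have h2 := congrFun h1 a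
      classical
      show D.φ1 Q ((D.ev1 (D.p i) *ᵥ D.E1 - (Pi.single i 1 : Fin g → D.R1)) a) = 0
      rw [Pi.sub_apply, map_sub, h2]
      by_cases ha : a = i
      · subst ha; simp
      · simp [Pi.single_eq_of_ne ha]
  exact this hx

/-- the classifying map of a point. -/
noncomputable def φ : D.Ring →ₐ[k] A :=
  D.lift2 (D.φ1 Q) (D.φ1_relIdeal Q)

theorem φ_mk (x : D.R1) : D.φ Q (D.mk2 x) = D.φ1 Q x := rfl

theorem univPt_map_φ : D.univPt.map (D.φ Q) = Q := by
  apply BPt.ext'
  · apply AlgHom.ext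
    intro b
    obtain ⟨x, rfl⟩ := D.surj b
    show (D.φ Q).mapMatrix (D.ψu (D.π x)) = _
    rw [ψu_π, ev2_eq, AlgHom.comp_apply, ← AlgHom.comp_apply (D.φ Q).mapMatrix,
      AlgHom.mapMatrix_comp]
    have : (D.φ Q).comp D.mk2 = D.φ1 Q := by
      apply AlgHom.ext; intro y; rfl
    rw [this, ← AlgHom.comp_apply, φ1_ev1]
    rfl
  · funext a
    show D.φ Q (D.eu a) = Q.e a
    rw [eu, φ_mk, φ1_E1]

end Surj

theorem univPt_map_bijective (A : Type*) [CommRing A] [Algebra k A] :
    Function.Bijective (fun φ : D.Ring →ₐ[k] A => D.univPt.map φ) :=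
  ⟨D.univPt_map_injective, fun Q => ⟨D.φ Q, D.univPt_map_φ Q⟩⟩

/-- **Representability of the Hilbert-chart functor** (on `B`-points). -/
noncomputable def ringHomEquivBPt (A : Type*) [CommRing A] [Algebra k A] :
    (D.Ring →ₐ[k] A) ≃ BPt k B D.v A :=
  Equiv.ofBijective _ (D.univPt_map_bijective A)

theorem ringHomEquivBPt_apply (φ : D.Ring →ₐ[k] A) : D.ringHomEquivBPt A φ = D.univPt.map φ := rfl

/-- **Representability of the Hilbert-chart functor**: `k`-algebra maps `D.Ring → A` are the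
chart ideals of `A ⊗[k] B`. -/
noncomputable def chartEquiv (A : Type*) [CommRing A] [Algebra k A] :
    (D.Ring →ₐ[k] A) ≃ HilbPt k D.v A :=
  (D.ringHomEquivBPt A).trans (hilbPtEquivBPt D.v A).symm

/-- **Naturality** of the representing bijection. -/
theorem chartEquiv_comp {A' : Type*} [CommRing A'] [Algebra k A'] (f : A →ₐ[k] A')
    (φ : D.Ring →ₐ[k] A) : D.chartEquiv A' (f.comp φ) = (D.chartEquiv A φ).map f := by
  show (hilbPtEquivBPt D.v A').symm (D.ringHomEquivBPt A' (f.comp φ)) =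
    ((hilbPtEquivBPt D.v A).symm (D.ringHomEquivBPt A φ)).map f
  rw [Equiv.symm_apply_eq, hilbPtEquivBPt_map, Equiv.apply_symm_apply, ringHomEquivBPt_apply,
    ringHomEquivBPt_apply, BPt.map_comp]

/-- the universal chart ideal of `D.Ring ⊗[k] B`. -/
noncomputable def univIdeal : HilbPt k D.v D.Ring := D.chartEquiv D.Ring (AlgHom.id k D.Ring)

/-- every chart ideal is the extension of the universal one along its classifying map. -/
theorem eq_map_univIdeal (I : HilbPt k D.v A) :
    I = D.univIdeal.map ((D.chartEquiv A).symm I) := by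
  rw [univIdeal, ← chartEquiv_comp, AlgHom.comp_id, Equiv.apply_symm_apply]

instance finiteType_ring : Algebra.FiniteType k D.Ring :=
  Algebra.FiniteType.of_surjective (D.mk2.comp D.mk1)
    (D.mk2_surjective.comp D.mk1_surjective)

end ChartData

/-- every finite family in a finitely generated algebra comes from chart data. -/
theorem exists_chartData {k : Type*} [CommRing k] {B : Type*} [CommRing B] [Algebra k B]
    [Algebra.FiniteType k B] {g : ℕ} (v : Fin g → B) : ∃ D : ChartData k B g, D.v = v := by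
  obtain ⟨n, π, hπ⟩ := Algebra.FiniteType.iff_quotient_mvPolynomial''.mp
    (inferInstance : Algebra.FiniteType k B)
  choose p hp using fun i => hπ (v i)
  exact ⟨⟨n, π, hπ, p⟩, funext hp⟩

end Fermat.Agent.Jac.Chart43
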