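/-
JAC brick A4b (RelCartier), part 1: locally principal ideals.

Main result `locPrincipal_of_finite_flat`: for an algebraically closed field `k`, finitely
generated `k`-algebras `H` and `B` with `B` a Dedekind domain, and an ideal `I` of `H ⊗[k] B`
whose quotient is finite and flat over `H` and whose fibres over the `k`-points of `H` are
nonzero, the ideal `I` is locally principal (Zariski-locally generated by one element).
The property `LocPrincipal` is stable under extension along arbitrary ring maps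
(`LocPrincipal.map`), which transports the result from the universal (noetherian) case to
arbitrary base rings.
-/
import Mathlib

namespace Fermat.Agent.Jac.Chart43

open TensorProduct Polynomial

/-! ### Locally principal ideals -/

section LocPrincipal

variable {R : Type*} [CommRing R]

/-- `I` is locally principal: near every prime, `I` is generated by a single element. -/
def LocPrincipal (I : Ideal R) : Prop :=
  ∀ 𝔭 : Ideal R, 𝔭.IsPrime → ∃ f ∈ I, ∃ u, u ∉ 𝔭 ∧ ∀ y ∈ I, ∃ c, u * y = f * c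

/-- it suffices to check local principality at the maximal ideals. -/
theorem LocPrincipal.of_maximal {I : Ideal R}
    (h : ∀ 𝔫 : Ideal R, 𝔫.IsMaximal → ∃ f ∈ I, ∃ u, u ∉ 𝔫 ∧ ∀ y ∈ I, ∃ c, u * y = f * c) :
    LocPrincipal I := by
  intro 𝔭 h𝔭
  obtain ⟨𝔫, h𝔫, hle⟩ := Ideal.exists_le_maximal 𝔭 h𝔭.ne_top
  obtain ⟨f, hf, u, hu, hy⟩ := h 𝔫 h𝔫
  exact ⟨f, hf, u, fun hu' => hu (hle hu'), hy⟩

/-- local principality is stable under extension of ideals. -/
theorem LocPrincipal.map {R' : Type*} [CommRing R'] (F : R →+* R') {I : Ideal R}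
    (h : LocPrincipal I) : LocPrincipal (I.map F) := by
  intro 𝔭' h𝔭'
  obtain ⟨f, hf, u, hu, hy⟩ := h (𝔭'.comap F) (Ideal.comap_isPrime F 𝔭')
  refine ⟨F f, Ideal.mem_map_of_mem F hf, F u, fun hu' => hu (Ideal.mem_comap.mpr hu'), ?_⟩
  intro y hy'
  refine Submodule.span_induction (p := fun y _ => ∃ c, F u * y = F f * c) ?_ ?_ ?_ ?_ hy'
  · rintro _ ⟨y0, hy0, rfl⟩
    obtain ⟨c, hc⟩ := hy y0 hy0
    exact ⟨F c, by rw [← map_mul, hc, map_mul]⟩
  · exact ⟨0, by simp⟩
  · rintro y1 y2 _ _ ⟨c1, h1⟩ ⟨c2, h2⟩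
    exact ⟨c1 + c2, by rw [mul_add, h1, h2, mul_add]⟩
  · rintro r y1 _ ⟨c1, h1⟩
    exact ⟨r * c1, by rw [smul_eq_mul, mul_left_comm, h1, mul_left_comm]⟩

end LocPrincipal

/-! ### A Nakayama-type lemma (determinant trick) -/

section Nakayama

variable {R : Type*} [CommRing R]

/-- if `s • I ⊆ (f) + 𝔞 I` with `I` finitely generated, `𝔞 ⊆ 𝔫` and `s ∉ 𝔫` (`𝔫` prime), then
`u • I ⊆ (f)` for some `u ∉ 𝔫`. -/
theorem exists_notMem_forall_mul_mem_span (𝔫 : Ideal R) [𝔫.IsPrime] (𝔞 : Ideal R) (h𝔞 : 𝔞 ≤ 𝔫)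
    (I : Ideal R) (hI : I.FG) (f s : R) (hs : s ∉ 𝔫)
    (h : ∀ x ∈ I, s * x ∈ Ideal.span {f} ⊔ 𝔞 * I) :
    ∃ u, u ∉ 𝔫 ∧ ∀ x ∈ I, u * x ∈ Ideal.span {f} := by
  classical
  -- the image of `I` in `R ⧸ (f)`
  set q : R →ₗ[R] R ⧸ Ideal.span {f} := (Ideal.span {f}).mkQ with hq
  set N : Submodule R (R ⧸ Ideal.span {f}) := Submodule.map q I with hN
  have hNfg : N.FG := Submodule.FG.map q hI
  have : Module.Finite R N := Module.Finite.iff_fg.mpr hNfg
  -- multiplication by `s` on `N`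
  let φ : Module.End R N := algebraMap R (Module.End R N) s
  have hrange : LinearMap.range φ ≤ 𝔞 • (⊤ : Submodule R N) := by
    rintro _ ⟨y, rfl⟩
    rw [Submodule.mem_smul_top_iff]
    obtain ⟨x, hx, hxy⟩ := y.2
    have h1 := h x hx
    obtain ⟨z1, hz1, z2, hz2, hz⟩ := Submodule.mem_sup.mp h1
    have h2 : ((φ y : N) : R ⧸ Ideal.span {f}) = q z2 := by
      show s • (y : R ⧸ Ideal.span {f}) = q z2
      rw [← hxy, ← map_smul, smul_eq_mul, ← hz, map_add]
      have : q z1 = 0 := by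
        rw [hq, Submodule.mkQ_apply, Submodule.Quotient.mk_eq_zero]
        exact hz1
      rw [this, zero_add]
    rw [h2, hN, ← Submodule.map_smul'']
    exact Submodule.mem_map_of_mem hz2
  obtain ⟨p, hmonic, -, hcoeff, hp⟩ :=
    LinearMap.exists_monic_and_natDegree_eq_and_coeff_mem_pow_and_aeval_eq_zero R φ 𝔞 hrange
  refine ⟨p.eval s, ?_, ?_⟩
  · -- `p.eval s ≡ s ^ deg p` modulo `𝔫`
    intro hmem
    have h1 : (p.map (Ideal.Quotient.mk 𝔫)) = X ^ p.natDegree := by
      ext j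
      rw [coeff_map, coeff_X_pow]
      by_cases hj : j = p.natDegree
      · rw [if_pos hj, hj, hmonic.coeff_natDegree, map_one]
      · rw [if_neg hj]
        rcases lt_or_gt_of_ne hj with hlt | hgt
        · rw [Ideal.Quotient.eq_zero_iff_mem]
          apply h𝔞
          have := hcoeff j
          have hpos : p.natDegree - j ≠ 0 := by omega
          exact Ideal.pow_le_self hpos this
        · rw [coeff_eq_zero_of_natDegree_lt hgt, map_zero]
    have h2 : Ideal.Quotient.mk 𝔫 (p.eval s) = (Ideal.Quotient.mk 𝔫 s) ^ p.natDegree := by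
      rw [← eval_map_apply, h1, eval_pow, eval_X]
    rw [← Ideal.Quotient.eq_zero_iff_mem, h2] at hmem
    have : Ideal.Quotient.mk 𝔫 s = 0 := by
      by_contra hne
      exact pow_ne_zero _ hne hmem
    exact hs (Ideal.Quotient.eq_zero_iff_mem.mp this)
  · intro x hx
    have h1 : aeval φ p = algebraMap R (Module.End R N) (p.eval s) := by
      show aeval (algebraMap R (Module.End R N) s) p = _
      rw [aeval_algebraMap_apply, aeval_def, eval₂_eq_eval_map]
      simp
    have hxN : q x ∈ N := Submodule.mem_map_of_mem hx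
    have h2 : (aeval φ p) ⟨q x, hxN⟩ = 0 := by rw [hp]; rfl
    rw [h1] at h2
    have h3 : (p.eval s) • q x = 0 := by
      have := congrArg (Subtype.val) h2
      simpa using this
    rw [← map_smul, hq, Submodule.mkQ_apply, Submodule.Quotient.mk_eq_zero, smul_eq_mul] at h3
    exact h3

end Nakayama

/-! ### Flat quotients: `I ∩ 𝔪 R = 𝔪 I` -/

section FlatInter

variable {A : Type*} [CommRing A] {R : Type*} [CommRing R] [Algebra A R]

/-- if `R ⧸ I` is flat over `A`, then `I ∩ 𝔪 R ⊆ 𝔪 I` for every ideal `𝔪` of `A`. -/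
theorem mem_map_mul_of_flat (I : Ideal R) [Module.Flat A (R ⧸ I)] (𝔪 : Ideal A) {x : R}
    (hxI : x ∈ I) (hx𝔪 : x ∈ 𝔪.map (algebraMap A R)) : x ∈ 𝔪.map (algebraMap A R) * I := by
  classical
  -- write `x = ∑ aᵢ rᵢ` with `aᵢ ∈ 𝔪`
  obtain ⟨n, r, a, hsum⟩ := Submodule.mem_span_set'.mp hx𝔪
  choose a0 ha0 ha0' using fun i => (a i).2
  have hsum' : ∑ i, a0 i • r i = x := by
    rw [← hsum]
    apply Finset.sum_congr rfl
    intro i _
    rw [Algebra.smul_def, ha0' i, smul_eq_mul, mul_comm]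
  -- the relation `∑ aᵢ r̄ᵢ = 0` in the flat module `R ⧸ I` is trivial
  have hrel : ∑ i, a0 i • (Ideal.Quotient.mk I (r i)) = 0 := by
    have : Ideal.Quotient.mk I x = 0 := Ideal.Quotient.eq_zero_iff_mem.mpr hxI
    rw [← this, ← hsum', map_sum]
    apply Finset.sum_congr rfl
    intro i _
    rw [Algebra.smul_def, Algebra.smul_def, map_mul]
    rfl
  obtain ⟨m, b, y, hy, hb⟩ :=
    Module.Flat.isTrivialRelation_of_sum_smul_eq_zero (R := A) (M := R ⧸ I) hrel
  replace hy : ∀ i, Ideal.Quotient.mk I (r i) = ∑ j, b i j • y j := hy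
  choose y0 hy0 using fun j => Ideal.Quotient.mk_surjective (y j)
  -- `zᵢ := rᵢ - ∑ⱼ bᵢⱼ ỹⱼ ∈ I`
  have hz : ∀ i, r i - ∑ j, b i j • y0 j ∈ I := by
    intro i
    rw [← Ideal.Quotient.eq_zero_iff_mem, map_sub, hy i, map_sum, sub_eq_zero]
    apply Finset.sum_congr rfl
    intro j _
    rw [← hy0 j, Algebra.smul_def, Algebra.smul_def, map_mul]
    rfl
  have hx : x = ∑ i, a0 i • (r i - ∑ j, b i j • y0 j) := by
    have h1 : ∑ i, a0 i • ∑ j, b i j • y0 j = 0 := by
      simp_rw [Finset.smul_sum, smul_smul]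
      rw [Finset.sum_comm]
      apply Finset.sum_eq_zero
      intro j _
      rw [← Finset.sum_smul, hb j, zero_smul]
    simp_rw [smul_sub, Finset.sum_sub_distrib]
    rw [h1, sub_zero, hsum']
  rw [hx]
  apply Ideal.sum_mem
  intro i _
  rw [Algebra.smul_def]
  exact Ideal.mul_mem_mul (Ideal.mem_map_of_mem _ (ha0 i)) (hz i)

end FlatInter

/-! ### Dedekind domains: ideals are principal near a given proper ideal -/

section Dedekind

variable {B : Type*} [CommRing B] [IsDedekindDomain B]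

/-- for a nonzero ideal `J` of a Dedekind domain and a proper ideal `𝔮`, there are `f ∈ J` and
`s ∉ 𝔮` with `s • J ⊆ (f)`. -/
theorem exists_mul_mem_span_of_isDedekindDomain (J 𝔮 : Ideal B) (hJ : J ≠ ⊥) (h𝔮 : 𝔮 ≠ ⊤) :
    ∃ f ∈ J, ∃ s, s ∉ 𝔮 ∧ ∀ x ∈ J, s * x ∈ Ideal.span {f} := by
  have hlt : J * 𝔮 < J := by
    refine lt_of_le_of_ne Ideal.mul_le_left ?_
    intro heq
    have h1 : J * 𝔮 = J * 1 := by rw [heq, mul_one]
    have h2 : 𝔮 = 1 := mul_left_cancel₀ hJ h1
    exact h𝔮 (by rw [h2, Ideal.one_eq_top])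
  obtain ⟨f, hfJ, hfn⟩ := SetLike.exists_of_lt hlt
  have hle : Ideal.span {f} ≤ J := (Ideal.span_singleton_le_iff_mem J).mpr hfJ
  obtain ⟨𝔠, h𝔠⟩ := Ideal.dvd_iff_le.mpr hle
  have hnot : ¬ 𝔠 ≤ 𝔮 := by
    intro hc
    apply hfn
    have : Ideal.span {f} ≤ J * 𝔮 := by
      rw [h𝔠]
      exact Ideal.mul_mono_right hc
    exact this (Ideal.mem_span_singleton_self f)
  obtain ⟨s, hs𝔠, hs𝔮⟩ := SetLike.not_le_iff_exists.mp hnot
  refine ⟨f, hfJ, s, hs𝔮, fun x hx => ?_⟩
  rw [h𝔠, mul_comm s x]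
  exact Ideal.mul_mem_mul hx hs𝔠

end Dedekind

/-! ### Fibres of `H ⊗[k] B` over `k`-points of `H` -/

section Fibre

variable {k : Type*} [Field k] {H : Type*} [CommRing H] [Algebra k H] {B : Type*} [CommRing B]
  [Algebra k B]

/-- the fibre map `H ⊗[k] B → B` at a `k`-point `χ` of `H`. -/
noncomputable def fibreMap (χ : H →ₐ[k] k) : H ⊗[k] B →ₐ[k] B :=
  Algebra.TensorProduct.lift ((Algebra.ofId k B).comp χ) (AlgHom.id k B)
    (fun _ _ => Commute.all _ _)

theorem fibreMap_tmul (χ : H →ₐ[k] k) (a : H) (b : B) :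
    fibreMap χ (a ⊗ₜ[k] b) = χ a • b := by
  simp [fibreMap, Algebra.smul_def, Algebra.ofId_apply]

theorem fibreMap_surjective (χ : H →ₐ[k] k) :
    Function.Surjective (fibreMap (B := B) χ) := by
  intro b
  exact ⟨1 ⊗ₜ[k] b, by rw [fibreMap_tmul, map_one, one_smul]⟩

/-- every element is congruent to its fibre value modulo `𝔪 (H ⊗ B)`, `𝔪 = ker χ`. -/
theorem sub_one_tmul_fibreMap_mem (χ : H →ₐ[k] k) (z : H ⊗[k] B) :
    z - 1 ⊗ₜ[k] fibreMap χ z ∈ (RingHom.ker χ).map (algebraMap H (H ⊗[k] B)) := by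
  induction z using TensorProduct.induction_on with
  | zero => simp
  | tmul a b =>
    rw [fibreMap_tmul]
    have h1 : a ⊗ₜ[k] b - (1 : H) ⊗ₜ[k] (χ a • b) =
        algebraMap H (H ⊗[k] B) (a - algebraMap k H (χ a)) * ((1 : H) ⊗ₜ[k] b) := by
      rw [Algebra.TensorProduct.algebraMap_apply, Algebra.TensorProduct.tmul_mul_tmul, mul_one,
        one_mul, Algebra.algebraMap_self_apply, sub_tmul, TensorProduct.tmul_smul,
        Algebra.algebraMap_eq_smul_one, TensorProduct.smul_tmul']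
    rw [h1]
    apply Ideal.mul_mem_right
    apply Ideal.mem_map_of_mem
    rw [RingHom.mem_ker, map_sub, AlgHom.commutes, Algebra.algebraMap_self_apply, sub_self]
  | add x y hx hy =>
    have := Ideal.add_mem _ hx hy
    convert this using 1
    rw [map_add, tmul_add]
    ring

theorem mem_map_ker_of_fibreMap_eq_zero (χ : H →ₐ[k] k) {z : H ⊗[k] B}
    (hz : fibreMap χ z = 0) : z ∈ (RingHom.ker χ).map (algebraMap H (H ⊗[k] B)) := by
  have := sub_one_tmul_fibreMap_mem χ z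
  rwa [hz, tmul_zero, sub_zero] at this

end Fibre

/-! ### Maximal ideals of finitely generated algebras over an algebraically closed field -/

section Points

variable {k : Type*} [Field k] [IsAlgClosed k]

/-- a maximal ideal of a finitely generated algebra over an algebraically closed field is the
kernel of a `k`-point. -/
theorem exists_algHom_ker_eq {R : Type*} [CommRing R] [Algebra k R] [Algebra.FiniteType k R]
    (𝔫 : Ideal R) [h𝔫 : 𝔫.IsMaximal] : ∃ ψ : R →ₐ[k] k, RingHom.ker ψ = 𝔫 := by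
  let _ : Field (R ⧸ 𝔫) := Ideal.Quotient.field 𝔫
  have hft : Algebra.FiniteType k (R ⧸ 𝔫) :=
    Algebra.FiniteType.of_surjective (Ideal.Quotient.mkₐ k 𝔫) (Ideal.Quotient.mkₐ_surjective k 𝔫)
  have hfin : Module.Finite k (R ⧸ 𝔫) := finite_of_finite_type_of_isJacobsonRing k (R ⧸ 𝔫)
  have hint : Algebra.IsIntegral k (R ⧸ 𝔫) := inferInstance
  have hbij : Function.Bijective (algebraMap k (R ⧸ 𝔫)) :=
    IsAlgClosed.algebraMap_bijective_of_isIntegral
  let e : k ≃ₐ[k] (R ⧸ 𝔫) := AlgEquiv.ofBijective (Algebra.ofId k (R ⧸ 𝔫)) hbij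
  refine ⟨(e.symm : (R ⧸ 𝔫) →ₐ[k] k).comp (Ideal.Quotient.mkₐ k 𝔫), ?_⟩
  ext x
  rw [RingHom.mem_ker, AlgHom.comp_apply]
  show e.symm (Ideal.Quotient.mkₐ k 𝔫 x) = 0 ↔ x ∈ 𝔫
  rw [map_eq_zero_iff _ e.symm.injective, Ideal.Quotient.mkₐ_eq_mk, Ideal.Quotient.eq_zero_iff_mem]

end Points

/-! ### The universal case -/

section Universal

variable {k : Type*} [Field k] [IsAlgClosed k] {H : Type*} [CommRing H] [Algebra k H]
  [Algebra.FiniteType k H] {B : Type*} [CommRing B] [Algebra k B] [Algebra.FiniteType k B]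
  [IsDedekindDomain B]

/-- **Local principality in the universal case**: an ideal of `H ⊗[k] B` (`H`, `B` finitely
generated over the algebraically closed field `k`, `B` Dedekind) with `H`-flat quotient and nonzero
fibres over all `k`-points of `H` is locally principal. -/
theorem locPrincipal_of_flat_of_fibres (I : Ideal (H ⊗[k] B)) [Module.Flat H ((H ⊗[k] B) ⧸ I)]
    (hfib : ∀ χ : H →ₐ[k] k, I.map (fibreMap (B := B) χ) ≠ ⊥) : LocPrincipal I := by
  have hft1 : Algebra.FiniteType H (H ⊗[k] B) := inferInstance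
  have hft : Algebra.FiniteType k (H ⊗[k] B) := Algebra.FiniteType.trans (S := H) inferInstance hft1
  have hnoeth : IsNoetherianRing (H ⊗[k] B) := Algebra.FiniteType.isNoetherianRing k _
  apply LocPrincipal.of_maximal
  intro 𝔫 h𝔫
  obtain ⟨ψ, hψ⟩ := exists_algHom_ker_eq (k := k) 𝔫
  -- the two components of the point
  let χ : H →ₐ[k] k := ψ.comp Algebra.TensorProduct.includeLeft
  let θ : B →ₐ[k] k := ψ.comp Algebra.TensorProduct.includeRight
  have hψρ : ∀ z, ψ z = θ (fibreMap χ z) := by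
    intro z
    induction z using TensorProduct.induction_on with
    | zero => simp
    | tmul a b =>
      rw [fibreMap_tmul, map_smul, smul_eq_mul]
      show ψ (a ⊗ₜ[k] b) = ψ (a ⊗ₜ[k] (1 : B)) * ψ ((1 : H) ⊗ₜ[k] b)
      rw [← map_mul, Algebra.TensorProduct.tmul_mul_tmul, mul_one, one_mul]
    | add x y hx hy => rw [map_add, map_add, map_add, hx, hy]
  have h𝔮 : RingHom.ker θ ≠ ⊤ := RingHom.ker_ne_top _
  obtain ⟨fb, hfb, sb, hsb, hJ⟩ := exists_mul_mem_span_of_isDedekindDomain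
    (I.map (fibreMap (B := B) χ)) (RingHom.ker θ) (hfib χ) h𝔮
  obtain ⟨f, hfI, hf⟩ := (Ideal.mem_map_iff_of_surjective _ (fibreMap_surjective χ)).mp hfb
  set s : H ⊗[k] B := 1 ⊗ₜ[k] sb with hs
  have hs𝔫 : s ∉ 𝔫 := by
    rw [← hψ, RingHom.mem_ker, hψρ, hs, fibreMap_tmul, map_one, one_smul]
    exact hsb
  set 𝔞 : Ideal (H ⊗[k] B) := (RingHom.ker χ).map (algebraMap H (H ⊗[k] B)) with h𝔞
  have h𝔞𝔫 : 𝔞 ≤ 𝔫 := by
    rw [h𝔞, Ideal.map_le_iff_le_comap]
    intro a ha
    rw [Ideal.mem_comap, ← hψ, RingHom.mem_ker]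
    exact ha
  have key : ∀ x ∈ I, s * x ∈ Ideal.span {f} ⊔ 𝔞 * I := by
    intro x hx
    have h1 : sb * fibreMap χ x ∈ Ideal.span {fb} := hJ _ (Ideal.mem_map_of_mem _ hx)
    obtain ⟨cb, hcb⟩ := Ideal.mem_span_singleton'.mp h1
    set c : H ⊗[k] B := 1 ⊗ₜ[k] cb with hc
    have h2 : fibreMap χ (s * x - c * f) = 0 := by
      rw [map_sub, map_mul, map_mul, hs, hc, fibreMap_tmul, fibreMap_tmul, map_one, one_smul,
        one_smul, hf, hcb, sub_self]
    have h3 : s * x - c * f ∈ 𝔞 := mem_map_ker_of_fibreMap_eq_zero χ h2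
    have h4 : s * x - c * f ∈ I :=
      Ideal.sub_mem _ (Ideal.mul_mem_left _ _ hx) (Ideal.mul_mem_left _ _ hfI)
    have h5 : s * x - c * f ∈ 𝔞 * I := mem_map_mul_of_flat I (RingHom.ker χ) h4 h3
    have h6 : s * x = c * f + (s * x - c * f) := by ring
    rw [h6]
    exact Submodule.add_mem_sup (Ideal.mem_span_singleton'.mpr ⟨c, rfl⟩) h5
  obtain ⟨u, hu, hux⟩ := exists_notMem_forall_mul_mem_span 𝔫 𝔞 h𝔞𝔫 I
    (IsNoetherian.noetherian I) f s hs𝔫 key
  refine ⟨f, hfI, u, hu, fun y hy => ?_⟩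
  obtain ⟨c, hc⟩ := Ideal.mem_span_singleton'.mp (hux y hy)
  exact ⟨c, by rw [← hc, mul_comm]⟩

end Universal

/-! ### Monic relations and nonzero fibres -/

section Monic

variable {H : Type*} [CommRing H] {R : Type*} [CommRing R] [Algebra H R]

/-- Cayley–Hamilton: if `R ⧸ I` is a finite `H`-module, every `t : R` satisfies a monic polynomial
with coefficients in `H` modulo `I`. -/
theorem exists_monic_aeval_mem (I : Ideal R) [Module.Finite H (R ⧸ I)] (t : R) :
    ∃ p : H[X], p.Monic ∧ aeval t p ∈ I := by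
  obtain ⟨p, hp, hpe⟩ := LinearMap.exists_monic_and_aeval_eq_zero H
    (Algebra.lmul H (R ⧸ I) (Ideal.Quotient.mk I t))
  refine ⟨p, hp, ?_⟩
  rw [aeval_algHom_apply] at hpe
  have h1 := congrArg (fun φ : Module.End H (R ⧸ I) => φ 1) hpe
  simp only [LinearMap.zero_apply] at h1
  have h2 : aeval (Ideal.Quotient.mk I t) p = Ideal.Quotient.mk I (aeval t p) := by
    rw [← Ideal.Quotient.mkₐ_eq_mk H, aeval_algHom_apply]
  rw [← Ideal.Quotient.eq_zero_iff_mem, ← h2]
  simpa using h1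

end Monic

section FibreNonzero

variable {k : Type*} [Field k] {H : Type*} [CommRing H] [Algebra k H] {B : Type*} [CommRing B]
  [Algebra k B]

/-- the fibre of a monic polynomial in `1 ⊗ b`. -/
theorem fibreMap_aeval_one_tmul (χ : H →ₐ[k] k) (b : B) (p : H[X]) :
    fibreMap χ (aeval ((1 : H) ⊗ₜ[k] b) p) = aeval b (p.map (χ : H →+* k)) := by
  rw [aeval_def, aeval_def, eval₂_map, ← AlgHom.coe_toRingHom (fibreMap χ), hom_eval₂]
  congr 1
  · ext a
    simp only [RingHom.coe_comp, Function.comp_apply,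
      Algebra.TensorProduct.algebraMap_apply, Algebra.algebraMap_self_apply, RingHom.coe_coe]
    rw [fibreMap_tmul, Algebra.smul_def, mul_one]
  · simp only [AlgHom.coe_toRingHom]
    rw [fibreMap_tmul, map_one, one_smul]

/-- if `(H ⊗ B) ⧸ I` is finite over `H` and `b : B` is transcendental over `k`, all fibres of `I`
over `k`-points of `H` are nonzero. -/
theorem map_fibreMap_ne_bot (b : B) (hb : Transcendental k b) (I : Ideal (H ⊗[k] B))
    [Module.Finite H ((H ⊗[k] B) ⧸ I)] (χ : H →ₐ[k] k) : I.map (fibreMap (B := B) χ) ≠ ⊥ := by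
  obtain ⟨p, hp, hpI⟩ := exists_monic_aeval_mem (H := H) I ((1 : H) ⊗ₜ[k] b)
  intro hbot
  have h1 : fibreMap χ (aeval ((1 : H) ⊗ₜ[k] b) p) ∈ I.map (fibreMap (B := B) χ) :=
    Ideal.mem_map_of_mem _ hpI
  rw [hbot, Ideal.mem_bot, fibreMap_aeval_one_tmul] at h1
  have h2 := transcendental_iff.mp hb _ h1
  exact (hp.map (χ : H →+* k)).ne_zero h2

end FibreNonzero

end Fermat.Agent.Jac.Chart43
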