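/-
JAC brick A4b (RelCartier), part 2: relative effective Cartier divisors on `Spec (A ⊗[k] B)`.

* `invertible_of_locPrincipal` : a locally principal ideal containing a nonzerodivisor is an
  invertible module.
* `aeval_mem_nonZeroDivisors_of_flat` : if `R` is flat over `A[X]` (with `X` acting as `t`), monic
  polynomials in `t` are nonzerodivisors of `R`.
* `relCartier_finiteType`, `relCartier` : for `k` algebraically closed, `B` a finitely generated
  Dedekind `k`-algebra with a transcendental element `b`, an ideal `I` of `A ⊗[k] B` with finite
  flat quotient over `A` is an invertible `A ⊗[k] B`-module; first for `A` finitely generated over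
  `k`, then for every ideal which is extended from such a universal situation.
-/
import Fermat.Agent.Jac.Chart43.LocPrincipal

namespace Fermat.Agent.Jac.Chart43

open TensorProduct Polynomial

section Invertible

variable {R : Type*} [CommRing R]

/-- a locally principal ideal containing a nonzerodivisor is an invertible module. -/
theorem invertible_of_locPrincipal (I : Ideal R) (hI : LocPrincipal I) (χ : R) (hχI : χ ∈ I)
    (hχ : χ ∈ nonZeroDivisors R) : Module.Invertible R I := by
  -- the ambient faithful algebra `R[1/χ]`
  let A' := Localization.Away χ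
  have hinj : Function.Injective (algebraMap R A') :=
    IsLocalization.injective A' (M := Submonoid.powers χ) (Submonoid.powers_le.mpr hχ)
  have hfaith : FaithfulSMul R A' := (faithfulSMul_iff_algebraMap_injective R A').mpr hinj
  let ι : R →ₗ[R] A' := Algebra.linearMap R A'
  let I' : Submodule R A' := Submodule.map ι I
  let J' : Submodule R A' := 1 / I'
  let inv : A' := IsLocalization.Away.invSelf χ
  have hinv : algebraMap R A' χ * inv = 1 := IsLocalization.Away.mul_invSelf χ
  have hle : I' * J' ≤ 1 := Submodule.mul_one_div_le_one
  have hge : (1 : Submodule R A') ≤ I' * J' := by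
    rw [Submodule.one_le]
    -- the ideal of `r` with `r ∈ I' * J'`
    let 𝔠 : Ideal R := Submodule.comap ι (I' * J')
    have h𝔠 : 𝔠 = ⊤ := by
      by_contra hne
      obtain ⟨𝔫, h𝔫, hle𝔫⟩ := Ideal.exists_le_maximal 𝔠 hne
      obtain ⟨f, hfI, u, hu, huy⟩ := hI 𝔫 h𝔫.isPrime
      obtain ⟨c, hc⟩ := huy χ hχI
      -- `x' = u c / χ`
      have hx' : algebraMap R A' (u * c) * inv ∈ J' := by
        rw [Submodule.mem_div_iff_forall_mul_mem]
        rintro _ ⟨y, hy, rfl⟩
        obtain ⟨d, hd⟩ := huy y hy
        rw [Submodule.mem_one]
        refine ⟨u * d, ?_⟩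
        show algebraMap R A' (u * d) = algebraMap R A' (u * c) * inv * algebraMap R A' y
        have h1 : u * c * y = χ * (u * d) := by
          calc u * c * y = c * (u * y) := by ring
            _ = c * (f * d) := by rw [hd]
            _ = (f * c) * d := by ring
            _ = (u * χ) * d := by rw [hc]
            _ = χ * (u * d) := by ring
        calc algebraMap R A' (u * d) = (algebraMap R A' χ * inv) * algebraMap R A' (u * d) := by
              rw [hinv, one_mul]
          _ = algebraMap R A' (χ * (u * d)) * inv := by simp only [map_mul]; ring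
          _ = algebraMap R A' (u * c * y) * inv := by rw [h1]
          _ = algebraMap R A' (u * c) * inv * algebraMap R A' y := by simp only [map_mul]; ring
      have hmem : u * u ∈ 𝔠 := by
        show algebraMap R A' (u * u) ∈ I' * J'
        have h2 : algebraMap R A' (u * u) = algebraMap R A' f * (algebraMap R A' (u * c) * inv) := by
          calc algebraMap R A' (u * u) = (algebraMap R A' χ * inv) * algebraMap R A' (u * u) := by
                rw [hinv, one_mul]
            _ = algebraMap R A' (u * (u * χ)) * inv := by simp only [map_mul]; ring
            _ = algebraMap R A' (u * (f * c)) * inv := by rw [hc]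
            _ = algebraMap R A' f * (algebraMap R A' (u * c) * inv) := by
                simp only [map_mul]; ring
        rw [h2]
        exact Submodule.mul_mem_mul (Submodule.mem_map_of_mem hfI) hx'
      have := hle𝔫 hmem
      exact hu ((h𝔫.isPrime.mem_or_mem this).elim id id)
    have h1 : (1 : R) ∈ 𝔠 := by rw [h𝔠]; exact Submodule.mem_top
    have h2 : ι 1 ∈ I' * J' := h1
    simpa [ι] using h2
  have hmul : I' * J' = 1 := le_antisymm hle hge
  let U : (Submodule R A')ˣ := Units.mkOfMulEqOne I' J' hmul
  have hU : Module.Invertible R (U : Submodule R A') := inferInstance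
  have e : I ≃ₗ[R] (U : Submodule R A') := Submodule.equivMapOfInjective ι hinj I
  exact Module.Invertible.congr e.symm

end Invertible

section Regular

variable {A : Type*} [CommRing A] {R : Type*} [CommRing R] [Algebra A R]

/-- if `R` is flat over `A[X]`, with `X` acting as multiplication by `t`, monic polynomials in `t`
are nonzerodivisors of `R`. -/
theorem aeval_mem_nonZeroDivisors_of_flat (t : R) [Module.Flat A[X] (Module.AEval A R t)]
    {p : A[X]} (hp : p.Monic) : aeval t p ∈ nonZeroDivisors R := by
  rw [mem_nonZeroDivisors_iff_right]
  intro x hx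
  have hreg : IsSMulRegular (Module.AEval A R t) p :=
    Module.Flat.isSMulRegular_of_isRegular hp.isRegular
  have h1 : p • (Module.AEval.of A R t x) = p • (Module.AEval.of A R t 0) := by
    rw [← Module.AEval.of_aeval_smul, ← Module.AEval.of_aeval_smul, smul_eq_mul, smul_eq_mul,
      mul_comm, hx, mul_zero]
  have h2 := hreg h1
  exact (Module.AEval.of A R t).injective h2

end Regular

section Main

variable {k : Type*} [Field k] [IsAlgClosed k] {B : Type*} [CommRing B] [Algebra k B]
  [Algebra.FiniteType k B] [IsDedekindDomain B]

/-- **Local principality, universal case.** -/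
theorem locPrincipal_of_finite_flat {H : Type*} [CommRing H] [Algebra k H] [Algebra.FiniteType k H]
    (b : B) (hb : Transcendental k b) (I : Ideal (H ⊗[k] B)) [Module.Finite H ((H ⊗[k] B) ⧸ I)]
    [Module.Flat H ((H ⊗[k] B) ⧸ I)] : LocPrincipal I :=
  locPrincipal_of_flat_of_fibres I (fun χ => map_fibreMap_ne_bot b hb I χ)

/-- **Relative Cartier divisors, abstract form**: an ideal `I` of `R` which is extended from a
universal situation `(H, Iu)` with `H` finitely generated over `k`, and which contains `p(t)` for a
monic `p` with `R` flat over `A[t]`, is an invertible `R`-module. -/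
theorem relCartier_of_map {H : Type*} [CommRing H] [Algebra k H] [Algebra.FiniteType k H]
    (b : B) (hb : Transcendental k b) (Iu : Ideal (H ⊗[k] B))
    [Module.Finite H ((H ⊗[k] B) ⧸ Iu)] [Module.Flat H ((H ⊗[k] B) ⧸ Iu)]
    {A : Type*} [CommRing A] {R : Type*} [CommRing R] [Algebra A R] (F : H ⊗[k] B →+* R)
    (I : Ideal R) (hI : I = Iu.map F) [Module.Finite A (R ⧸ I)]
    (t : R) [Module.Flat A[X] (Module.AEval A R t)] : Module.Invertible R I := by
  obtain ⟨p, hp, hpI⟩ := exists_monic_aeval_mem (H := A) I t
  have hloc : LocPrincipal I := by
    rw [hI]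
    exact (locPrincipal_of_finite_flat b hb Iu).map F
  exact invertible_of_locPrincipal I hloc _ hpI (aeval_mem_nonZeroDivisors_of_flat t hp)

/-- **Relative Cartier divisors over a finitely generated base**: for `A` finitely generated over
the algebraically closed field `k` and `B` a finitely generated Dedekind `k`-algebra with a
transcendental element `b`, an ideal of `A ⊗[k] B` with finite flat quotient over `A` is an
invertible module. -/
theorem relCartier_finiteType {A : Type*} [CommRing A] [Algebra k A] [Algebra.FiniteType k A]
    (b : B) (hb : Transcendental k b) (I : Ideal (A ⊗[k] B))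
    [Module.Finite A ((A ⊗[k] B) ⧸ I)] [Module.Flat A ((A ⊗[k] B) ⧸ I)]
    [Module.Flat A[X] (Module.AEval A (A ⊗[k] B) ((1 : A) ⊗ₜ[k] b))] :
    Module.Invertible (A ⊗[k] B) I :=
  relCartier_of_map (A := A) b hb I (RingHom.id _) I (Ideal.map_id I).symm ((1 : A) ⊗ₜ[k] b)

end Main

end Fermat.Agent.Jac.Chart43
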