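/-
JAC brick A4b (RelCartier), part 3: the points of the Hilbert chart `Hilb_V` are invertible
ideals, over an ARBITRARY base ring `A`.  Stated both for `IsChartIdeal` (this directory) and for
`HilbChart87.HilbV` (brick A4a).
-/
import Fermat.Agent.Jac.Chart43.RelCartier
import Fermat.Agent.Jac.Chart43.ChartRing
import Fermat.Agent.Jac.HilbChart87.Basic

namespace Fermat.Agent.Jac.Chart43

open TensorProduct Polynomial

section Basic

variable {A : Type*} [CommRing A] {S : Type*} [CommRing S] [Algebra A S] {g : ℕ}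
  {v : Fin g → S} {I : Ideal S}

theorem IsChartIdeal.finite (h : IsChartIdeal A v I) : Module.Finite A (S ⧸ I) :=
  Module.Finite.equiv h.equiv

theorem IsChartIdeal.free (h : IsChartIdeal A v I) : Module.Free A (S ⧸ I) :=
  Module.Free.of_equiv h.equiv

/-- a chart ideal contains `p(t)` for some monic `p : A[X]`, for every `t`. -/
theorem IsChartIdeal.exists_monic_aeval_mem (h : IsChartIdeal A v I) (t : S) :
    ∃ p : A[X], p.Monic ∧ aeval t p ∈ I := by
  have := h.finite
  exact Fermat.Agent.Jac.Chart43.exists_monic_aeval_mem (H := A) I t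

end Basic

section Bridge

variable {k : Type*} [CommRing k] {B : Type*} [CommRing B] [Algebra k B] {g : ℕ}
  (v : Fin g → B) (A : Type*) [CommRing A] [Algebra k A]

/-- the two formulations of the Hilbert-chart condition agree. -/
theorem isChartIdeal_iff_mem_hilbV (I : Ideal (A ⊗[k] B)) :
    IsChartIdeal A (vT v A) I ↔ I ∈ HilbChart87.HilbV k v A := by
  have h : (fun c : Fin g → A => Ideal.Quotient.mk I (HilbChart87.vmap k v A c)) =
      ⇑(vmap (A := A) (vT v A) I) := by
    funext c
    rw [vmap_apply, HilbChart87.vmap_apply]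
    congr 1
    apply Finset.sum_congr rfl
    intro i _
    rw [vT, TensorProduct.smul_tmul', smul_eq_mul, mul_one]
  show Function.Bijective _ ↔ Function.Bijective _
  rw [h]

end Bridge

section Main

variable {k : Type*} [Field k] [IsAlgClosed k] {B : Type*} [CommRing B] [Algebra k B]
  [Algebra.FiniteType k B] [IsDedekindDomain B]

/-- every chart ideal of `A ⊗[k] B` is locally principal (ANY `k`-algebra `A`). -/
theorem locPrincipal_of_isChartIdeal (b : B) (hb : Transcendental k b) {g : ℕ} (v : Fin g → B)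
    {A : Type*} [CommRing A] [Algebra k A] {I : Ideal (A ⊗[k] B)}
    (hI : IsChartIdeal A (vT v A) I) : LocPrincipal I := by
  obtain ⟨D, rfl⟩ := exists_chartData (k := k) v
  have hu := D.univIdeal.2
  have h1 := hu.finite
  have h2 : Module.Flat D.Ring ((D.Ring ⊗[k] B) ⧸ D.univIdeal.1) := by
    have := hu.free
    infer_instance
  have hloc : LocPrincipal D.univIdeal.1 := locPrincipal_of_finite_flat b hb _
  have hmap := D.eq_map_univIdeal (⟨I, hI⟩ : HilbPt k D.v A)
  have hI' : I = D.univIdeal.1.map (baseMap ((D.chartEquiv A).symm ⟨I, hI⟩)) :=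
    congrArg Subtype.val hmap
  rw [hI']
  exact hloc.map _

/-- **RelCartier for Hilbert-chart points**: for `k` algebraically closed, `B` a finitely generated
Dedekind `k`-algebra, `b : B` transcendental over `k`, and ANY `k`-algebra `A` such that
`A ⊗[k] B` is flat over `A[X]` (`X ↦ 1 ⊗ b`), every chart ideal `I` of `A ⊗[k] B` is an invertible
`A ⊗[k] B`-module. -/
theorem invertible_of_isChartIdeal (b : B) (hb : Transcendental k b) {g : ℕ} (v : Fin g → B)
    {A : Type*} [CommRing A] [Algebra k A]
    [Module.Flat A[X] (Module.AEval A (A ⊗[k] B) ((1 : A) ⊗ₜ[k] b))]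
    {I : Ideal (A ⊗[k] B)} (hI : IsChartIdeal A (vT v A) I) :
    Module.Invertible (A ⊗[k] B) I := by
  obtain ⟨p, hp, hpI⟩ := hI.exists_monic_aeval_mem ((1 : A) ⊗ₜ[k] b)
  exact invertible_of_locPrincipal I (locPrincipal_of_isChartIdeal b hb v hI) _ hpI
    (aeval_mem_nonZeroDivisors_of_flat (A := A) _ hp)

/-- the same, for the points of brick A4a (`HilbChart87.HilbV`). -/
theorem invertible_of_mem_hilbV (b : B) (hb : Transcendental k b) {g : ℕ} (v : Fin g → B)
    {A : Type*} [CommRing A] [Algebra k A]
    [Module.Flat A[X] (Module.AEval A (A ⊗[k] B) ((1 : A) ⊗ₜ[k] b))]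
    {I : Ideal (A ⊗[k] B)} (hI : I ∈ HilbChart87.HilbV k v A) :
    Module.Invertible (A ⊗[k] B) I :=
  invertible_of_isChartIdeal b hb v ((isChartIdeal_iff_mem_hilbV v A I).mpr hI)

/-- local principality for the points of brick A4a. -/
theorem locPrincipal_of_mem_hilbV (b : B) (hb : Transcendental k b) {g : ℕ} (v : Fin g → B)
    {A : Type*} [CommRing A] [Algebra k A] {I : Ideal (A ⊗[k] B)}
    (hI : I ∈ HilbChart87.HilbV k v A) : LocPrincipal I :=
  locPrincipal_of_isChartIdeal b hb v ((isChartIdeal_iff_mem_hilbV v A I).mpr hI)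

end Main

end Fermat.Agent.Jac.Chart43
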