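/-
JAC brick R2a, pieces (HC-iso) and (HC-bc): invariance of the fibre condition
`AlgChart76.wCore c0 e v` under isomorphism and under field extension (both directions), and the
base-change formula for `AlgChart76.sectionIdeal` on the `W`-locus.
-/
import Fermat.Agent.Jac.Chart43.Concrete
import Fermat.Agent.Jac.Chart43.LiftSection
import Fermat.Agent.Jac.AlgChart76.H1Vanish
import Fermat.Agent.Jac.Cover12.HilbOpen

set_option autoImplicit false
set_option linter.unusedSectionVars false
set_option linter.style.haveILetI false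

universe u

open TensorProduct

namespace Fermat.Agent.Jac.Chart43

open scoped Fermat.Agent.Jac.BaseChange75
open Fermat.Agent.Jac.LineOps39 Fermat.Agent.Jac.SectionOfChart14 Fermat.Agent.Jac.P1CohChi
  Fermat.Agent.Jac.AlgChart76 Fermat.Agent.Jac.BaseChange75 Fermat.Agent.Jac.JSmooth85Alg
  Fermat.Agent.Jac.HilbChart87

variable {k : Type u} [Field k] {B0 B1 B01 : Type u} [CommRing B0] [CommRing B1] [CommRing B01]
  [Algebra k B0] [Algebra k B1] [Algebra k B01] [Algebra B0 B01] [Algebra B1 B01]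
  [IsScalarTower k B0 B01] [IsScalarTower k B1 B01]
  (c0 : TwoChart k B0 B1 B01) {ιInf : Type} (e : ιInf → (B1 →ₐ[k] k))

/-- **(HC-iso)** the fibre condition is invariant under isomorphism. -/
theorem wCore_iso {g : ℕ} (v : Fin g → B0) {A : Type u} [CommRing A] [Algebra k A]
    {M M' : QCA k B0 B1 B01 A} (f : QC2.Iso M M') (h : wCore c0 e v M) : wCore c0 e v M' :=
  ⟨H1Vanish.iso c0 e f h.1, by rw [← sectionIdeal_iso f]; exact h.2⟩

section BC

variable {A A' : Type u} [CommRing A] [CommRing A'] [Algebra k A] [Algebra k A'] [Algebra A A']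
  [IsScalarTower k A A']

/-- the structure map of the tensor rings is `ψ ⊗ id`. -/
theorem map_algebraMap_eq_map_tmap {B : Type u} [CommRing B] [Algebra k B]
    (I : Ideal (A ⊗[k] B)) :
    I.map (algebraMap (A ⊗[k] B) (A' ⊗[k] B)) =
      Ideal.map (HilbChart87.tmap (IsScalarTower.toAlgHom k A A')) I := by
  have h : algebraMap (A ⊗[k] B) (A' ⊗[k] B) =
      ((HilbChart87.tmap (IsScalarTower.toAlgHom k A A') : A ⊗[k] B →ₐ[k] A' ⊗[k] B) :
        A ⊗[k] B →+* A' ⊗[k] B) := by
    refine RingHom.ext fun z => ?_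
    induction z using TensorProduct.induction_on with
    | zero => simp
    | tmul a b =>
      rw [algebraMap_left_tmul]
      show _ = HilbChart87.tmap (IsScalarTower.toAlgHom k A A') (a ⊗ₜ[k] b)
      rw [HilbChart87.tmap_tmul]
      rfl
    | add x y hx hy => rw [map_add, map_add, hx, hy]
  rw [h]
  rfl

/-- **the section ideal commutes with base change on the `W`-locus.** -/
theorem sectionIdeal_liftData (hc0 : c0.FiniteProjOverLine) (hInf : InfData c0 e) (i₀ : ιInf)
    (hB0 : ∀ (K : Type u) [Field K] [Algebra k K], IsDomain (K ⊗[k] B0))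
    (hB1 : ∀ (K : Type u) [Field K] [Algebra k K], IsDomain (K ⊗[k] B1))
    {M : QCA k B0 B1 B01 A} {M' : QCA k B0 B1 B01 A'} (h : LiftData M M') (hM : M.IsLine)
    (hr : Rigidifiable (e i₀) M) (hχ : ∀ p : PrimeSpectrum A, M.chi p = 1)
    (hv : H1Vanish c0 e M) :
    sectionIdeal M' = (sectionIdeal M).map (algebraMap (A ⊗[k] B0) (A' ⊗[k] B0)) := by
  obtain ⟨-, hgood, ρ, σ, -, hcd⟩ := stdFam_chart_divisor c0 e hc0 hInf i₀ hB0 hB1 M hM hr hχ hv
  have := BaseChange75.towerLeft' k A A' B0
  have := BaseChange75.towerLeft' k A A' B1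
  have := BaseChange75.towerLeft' k A A' B01
  have := hM.inv0
  exact span_dual_apply_liftData h σ hcd.gen (hgood.bij A').2

end BC

section FieldExt

variable {K K' : Type u} [Field K] [Field K'] [Algebra k K] [Algebra k K'] [Algebra K K']
  [IsScalarTower k K K']

/-- descent of `HilbV` along a field extension. -/
theorem map_mem_hilbV_iff_of_field {B : Type u} [CommRing B] [Algebra k B] {g : ℕ}
    (v : Fin g → B) (I : Ideal (K ⊗[k] B)) :
    I.map (algebraMap (K ⊗[k] B) (K' ⊗[k] B)) ∈ HilbV k v K' ↔ I ∈ HilbV k v K := by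
  rw [map_algebraMap_eq_map_tmap, Cover12.HilbOpen.map_mem_hilbV_iff_bijective_baseChange,
    Cover12.HilbOpen.mem_hilbV_iff]
  exact Module.FaithfullyFlat.lTensor_bijective_iff_bijective K K' (Cover12.HilbOpen.theta v I)

/-- **(HC-bc)** the fibre condition is invariant under field extension, in both directions. -/
theorem wCore_bc (hc0 : c0.FiniteProjOverLine) (hInf : InfData c0 e) (i₀ : ιInf)
    (hB0 : ∀ (K : Type u) [Field K] [Algebra k K], IsDomain (K ⊗[k] B0))
    (hB1 : ∀ (K : Type u) [Field K] [Algebra k K], IsDomain (K ⊗[k] B1))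
    {g : ℕ} (v : Fin g → B0)
    {M : QCA k B0 B1 B01 K} {M' : QCA k B0 B1 B01 K'} (h : LiftData M M') (hM : M.IsLine)
    (hr : Rigidifiable (e i₀) M) (hχ : ∀ p : PrimeSpectrum K, M.chi p = 1) :
    wCore c0 e v M ↔ wCore c0 e v M' := by
  have hVB := isVB_of_isLine hM
  constructor
  · rintro ⟨hv, hI⟩
    refine ⟨H1Vanish.liftData c0 e hInf.s_mem h hVB hv, ?_⟩
    rw [sectionIdeal_liftData c0 e hc0 hInf i₀ hB0 hB1 h hM hr hχ hv]
    exact (map_mem_hilbV_iff_of_field v _).mpr hI
  · rintro ⟨hv', hI'⟩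
    have hv : H1Vanish c0 e M := H1Vanish.of_liftData_field c0 e hInf.s_mem h hVB hv'
    refine ⟨hv, ?_⟩
    rw [sectionIdeal_liftData c0 e hc0 hInf i₀ hB0 hB1 h hM hr hχ hv] at hI'
    exact (map_mem_hilbV_iff_of_field v _).mp hI'

end FieldExt

end Fermat.Agent.Jac.Chart43
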