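/-
JAC brick R2a (HC-unique, abstract core): the section ideal of `O(D)`.

Let `M ≅ O(D)` for an effective Cartier divisor `D` missing `s = 0` (`1 + s w ∈ D.I1`), rigidified
at a point at infinity `IP ∋ s` with `R1 = A + IP`, and suppose `H⁰(M) = A σ` with `σ` normalised
at the point.  Then the canonical section `1` of `O(D)` is a unit multiple of `σ` and the section
ideal of `M` is `D.I0`.
-/
import Fermat.Agent.Jac.Chart43.DivisorOfSection

set_option autoImplicit false
set_option linter.unusedSectionVars false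

universe u

open TensorProduct

namespace Fermat.Agent.Jac.Chart43

open Fermat.Agent.Jac.LineOps39

variable {A R0 R1 R01 : Type u} [CommRing A] [CommRing R0] [CommRing R1] [CommRing R01]
  [Algebra A R0] [Algebra A R1] [Algebra A R01] [Algebra R0 R01] [Algebra R1 R01]
  [IsScalarTower A R0 R01] [IsScalarTower A R1 R01]

section Abstract

variable (c : TwoChart A R0 R1 R01) (M : QC2 A R0 R1 R01) (D : IdealPair R0 R1 R01)
  (hVB : (ofIdeals c D).IsVB) (i : QC2.Iso M (ofDivisor c D hVB))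

/-- the section of `M` corresponding to the canonical section `1` of `O(D)`. -/
noncomputable def oneSectionOf : M.H0 := (isoH0 i).symm (oneSection c D hVB)

theorem e0_oneSectionOf : i.e0 (oneSectionOf c M D hVB i).1.1 = Submodule.subtype D.I0 := by
  have h := congrArg (fun τ : (ofDivisor c D hVB).H0 => τ.1.1)
    ((isoH0 i).apply_symm_apply (oneSection c D hVB))
  exact h

theorem e1_oneSectionOf : i.e1 (oneSectionOf c M D hVB i).1.2 = Submodule.subtype D.I1 := by
  have h := congrArg (fun τ : (ofDivisor c D hVB).H0 => τ.1.2)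
    ((isoH0 i).apply_symm_apply (oneSection c D hVB))
  exact h

/-- the content ideal of the canonical section is `D.I0`. -/
theorem contentIdeal_oneSectionOf [Module.Finite R0 D.I0] [Module.Projective R0 D.I0] :
    contentIdeal R0 (oneSectionOf c M D hVB i).1.1 = D.I0 := by
  rw [← contentIdeal_equiv i.e0, e0_oneSectionOf]
  exact contentIdeal_subtype D.I0

/-- near `s = 0` every section of `M` is a multiple of the canonical section:
`(1 + s w) • x = φ(u) • 1`. -/
theorem one_add_smul_eq (w : R1) (hw : 1 + c.s * w ∈ D.I1) (x : M.N1) :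
    ∃ r : R1, (1 + c.s * w) • x = r • (oneSectionOf c M D hVB i).1.2 := by
  let φ : Module.Dual R1 D.I1 := i.e1 x
  refine ⟨φ ⟨1 + c.s * w, hw⟩, ?_⟩
  apply i.e1.injective
  rw [map_smul, map_smul, e1_oneSectionOf]
  apply LinearMap.ext
  intro (y : D.I1)
  have h1 : (1 + c.s * w) • y = (y : R1) • (⟨1 + c.s * w, hw⟩ : D.I1) :=
    Subtype.ext (by
      show (1 + c.s * w) * (y : R1) = (y : R1) * (1 + c.s * w)
      ring)
  calc (1 + c.s * w) • φ y = φ ((1 + c.s * w) • y) := (map_smul φ _ _).symm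
    _ = φ ((y : R1) • (⟨1 + c.s * w, hw⟩ : D.I1)) := by rw [h1]
    _ = (y : R1) • φ ⟨1 + c.s * w, hw⟩ := map_smul φ _ _
    _ = φ ⟨1 + c.s * w, hw⟩ • (y : R1) := by rw [smul_eq_mul, smul_eq_mul, mul_comm]

/-- **the canonical section generates `H⁰`** (on the `W`-locus). -/
theorem oneSectionOf_eq_unit_smul (w : R1) (hw : 1 + c.s * w ∈ D.I1) (IP : Ideal R1)
    (hsP : c.s ∈ IP) (hAP : ∀ r : R1, ∃ a : A, r - algebraMap A R1 a ∈ IP)
    (ρ : (M.N1 ⧸ (IP • ⊤ : Submodule R1 M.N1)) ≃ₗ[A] A) (σ : M.H0)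
    (hσ : ρ (Submodule.Quotient.mk σ.1.2) = 1) (hgen : ∀ τ : M.H0, ∃ a : A, τ = a • σ) :
    ∃ a : Aˣ, oneSectionOf c M D hVB i = (a : A) • σ := by
  obtain ⟨a, ha⟩ := hgen (oneSectionOf c M D hVB i)
  -- value of the canonical section at the point
  have h1 : ρ (Submodule.Quotient.mk (oneSectionOf c M D hVB i).1.2) = a := by
    rw [ha]
    show ρ (Submodule.Quotient.mk (a • σ.1.2)) = a
    rw [Submodule.Quotient.mk_smul, map_smul, hσ, smul_eq_mul, mul_one]
  -- `σ_1` is a multiple of the canonical section modulo `IP`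
  obtain ⟨r, hr⟩ := one_add_smul_eq c M D hVB i w hw σ.1.2
  obtain ⟨b, hb⟩ := hAP r
  have h2 : (Submodule.Quotient.mk σ.1.2 : M.N1 ⧸ (IP • ⊤ : Submodule R1 M.N1)) =
      b • Submodule.Quotient.mk (oneSectionOf c M D hVB i).1.2 := by
    rw [← Submodule.Quotient.mk_smul, ← sub_eq_zero, ← Submodule.Quotient.mk_sub,
      Submodule.Quotient.mk_eq_zero]
    have h3 : σ.1.2 - b • (oneSectionOf c M D hVB i).1.2 =
        (r - algebraMap A R1 b) • (oneSectionOf c M D hVB i).1.2 - (c.s * w) • σ.1.2 := by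
      rw [sub_smul, ← hr, add_smul, one_smul, algebraMap_smul]
      abel
    rw [h3]
    refine sub_mem (Submodule.smul_mem_smul hb Submodule.mem_top) ?_
    exact Submodule.smul_mem_smul (Ideal.mul_mem_right _ _ hsP) Submodule.mem_top
  have h4 : (1 : A) = b * a := by
    rw [← hσ, h2, map_smul, h1, smul_eq_mul]
  exact ⟨⟨a, b, by rw [mul_comm, ← h4], h4.symm⟩, ha⟩

include i in
/-- **the section ideal of `M ≅ O(D)` is `D.I0`** (on the `W`-locus). -/
theorem span_dual_apply_eq_of_iso_ofDivisor [Module.Invertible R0 M.N0]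
    [Module.Finite R0 D.I0] [Module.Projective R0 D.I0]
    (w : R1) (hw : 1 + c.s * w ∈ D.I1) (IP : Ideal R1)
    (hsP : c.s ∈ IP) (hAP : ∀ r : R1, ∃ a : A, r - algebraMap A R1 a ∈ IP)
    (ρ : (M.N1 ⧸ (IP • ⊤ : Submodule R1 M.N1)) ≃ₗ[A] A) (σ : M.H0)
    (hσ : ρ (Submodule.Quotient.mk σ.1.2) = 1) (hgen : ∀ τ : M.H0, ∃ a : A, τ = a • σ) :
    Ideal.span {x : R0 | ∃ τ : M.H0, ∃ φ : Module.Dual R0 M.N0, x = φ τ.1.1} = D.I0 := by
  obtain ⟨a, ha⟩ := oneSectionOf_eq_unit_smul c M D hVB i w hw IP hsP hAP ρ σ hσ hgen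
  rw [span_dual_apply_eq_contentIdeal M σ hgen, ← contentIdeal_oneSectionOf c M D hVB i, ha]
  have h1 : ((a : A) • σ).1.1 = ((Units.map (algebraMap A R0).toMonoidHom a : R0ˣ) : R0) • σ.1.1 := by
    show (a : A) • σ.1.1 = algebraMap A R0 a • σ.1.1
    rw [algebraMap_smul]
  rw [h1, contentIdeal_unit_smul]

end Abstract

end Fermat.Agent.Jac.Chart43
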