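/-
JAC brick R2a, piece (HC-unique): uniqueness of the classifying homomorphism of the core Hilbert
chart.

* `sectionIdeal_eq_of_iso_ofDivisor` : for `M` in `stdFam (e i₀) 1` over `A` with `H1Vanish c0 e M`
  and `M ≅ O(Z(I0))` (`R0 ⧸ I0` finite over `A`, `I0` invertible): `sectionIdeal M = I0`.
* `hilbCore_unique` : the field `unique` of `AlgChart76.FibrewiseChart (stdFam (e i₀) 1)` for
  `H = HV k x v`, `w = wCore c0 e v`, given the universal object `U` whose base changes are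
  `O(Z(univIdeal ⊗ A))` (helper60's HC-U).
-/
import Fermat.Agent.Jac.Chart43.Concrete
import Fermat.Agent.Jac.Chart43.Unique
import Fermat.Agent.Jac.AlgChart76.H1Vanish
import Fermat.Agent.Jac.FiniteAwayInfty60
import Fermat.Agent.Jac.HilbChart87.Main

set_option autoImplicit false
set_option linter.unusedSectionVars false
set_option linter.style.haveILetI false

universe u

open TensorProduct

namespace Fermat.Agent.Jac.Chart43

open scoped Fermat.Agent.Jac.BaseChange75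
open Fermat.Agent.Jac.LineOps39 Fermat.Agent.Jac.SectionOfChart14 Fermat.Agent.Jac.P1CohChi
  Fermat.Agent.Jac.AlgChart76 Fermat.Agent.Jac.BaseChange75 Fermat.Agent.Jac.JSmooth85Alg

variable {k : Type u} [Field k] {B0 B1 B01 : Type u} [CommRing B0] [CommRing B1] [CommRing B01]
  [Algebra k B0] [Algebra k B1] [Algebra k B01] [Algebra B0 B01] [Algebra B1 B01]
  [IsScalarTower k B0 B01] [IsScalarTower k B1 B01]
  (c0 : TwoChart k B0 B1 B01) {ιInf : Type} (e : ιInf → (B1 →ₐ[k] k))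

/-- **the section ideal of `M ≅ O(Z(I0))` is `I0`** on the `W`-locus. -/
theorem sectionIdeal_eq_of_iso_ofDivisor (hc0 : c0.FiniteProjOverLine) (hInf : InfData c0 e)
    (i₀ : ιInf)
    (hB0 : ∀ (K : Type u) [Field K] [Algebra k K], IsDomain (K ⊗[k] B0))
    (hB1 : ∀ (K : Type u) [Field K] [Algebra k K], IsDomain (K ⊗[k] B1))
    {A : Type u} [CommRing A] [Algebra k A] (M : QCA k B0 B1 B01 A) (hM : M.IsLine)
    (hr : Rigidifiable (e i₀) M) (hχ : ∀ p : PrimeSpectrum A, M.chi p = 1)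
    (hv : H1Vanish c0 e M) (I0 : Ideal (A ⊗[k] B0)) [Module.Finite A ((A ⊗[k] B0) ⧸ I0)]
    (h0 : Module.Invertible (A ⊗[k] B0) I0)
    (hVB : (ofIdeals (c0.baseChange A) (IdealPair.ofChart0 (c0.baseChange A) I0)).IsVB)
    (i : QC2.Iso M (ofDivisor (c0.baseChange A) (IdealPair.ofChart0 (c0.baseChange A) I0) hVB)) :
    sectionIdeal M = I0 := by
  obtain ⟨-, -, ρ, σ, hσ, hcd⟩ := stdFam_chart_divisor c0 e hc0 hInf i₀ hB0 hB1 M hM hr hχ hv
  obtain ⟨w, hw⟩ := FiniteAwayInfty60.exists_one_add_s_mul_mem (c0.baseChange A) I0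
  have := hM.inv0
  have hfin : Module.Finite (A ⊗[k] B0) (IdealPair.ofChart0 (c0.baseChange A) I0).I0 :=
    inferInstanceAs (Module.Finite (A ⊗[k] B0) I0)
  have hproj : Module.Projective (A ⊗[k] B0) (IdealPair.ofChart0 (c0.baseChange A) I0).I0 :=
    inferInstanceAs (Module.Projective (A ⊗[k] B0) I0)
  have hsP : (c0.baseChange A).s ∈ ptIdeal (e i₀) A :=
    one_tmul_mem_ptIdeal (e i₀) A (hInf.s_mem i₀)
  have hAP : ∀ r : A ⊗[k] B1, ∃ a : A, r - algebraMap A (A ⊗[k] B1) a ∈ ptIdeal (e i₀) A := by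
    intro r
    refine ⟨evalA (e i₀) A r, ?_⟩
    rw [mem_ptIdeal, map_sub, AlgHom.commutes, sub_eq_zero]
    rfl
  exact span_dual_apply_eq_of_iso_ofDivisor (c0.baseChange A) M
    (IdealPair.ofChart0 (c0.baseChange A) I0) hVB i _ hw (ptIdeal (e i₀) A) hsP hAP ρ σ hσ hcd.gen

section Unique

variable {n : ℕ} {x : Fin n → B0} (hx : Algebra.adjoin k (Set.range x) = ⊤) {g : ℕ}
  (v : Fin g → B0)

/-- **(HC-unique)** uniqueness of the classifying homomorphism of the core Hilbert chart. -/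
theorem hilbCore_unique (hc0 : c0.FiniteProjOverLine) (hInf : InfData c0 e) (i₀ : ιInf)
    (hinv : ∀ i, Module.Invertible B1 (RingHom.ker (e i)))
    (hB0 : ∀ (K : Type u) [Field K] [Algebra k K], IsDomain (K ⊗[k] B0))
    (hB1 : ∀ (K : Type u) [Field K] [Algebra k K], IsDomain (K ⊗[k] B1))
    (U : (stdFam (B0 := B0) (B01 := B01) (e i₀) 1).Obj (HilbChart87.HV k x v))
    (hU : ∀ {A : Type u} [CommRing A] [Algebra k A] (ψ : HilbChart87.HV k x v →ₐ[k] A)
      (L : (stdFam (B0 := B0) (B01 := B01) (e i₀) 1).Obj A),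
      (stdFam (B0 := B0) (B01 := B01) (e i₀) 1).BC ψ U L →
      ∃ (_ : Module.Invertible (A ⊗[k] B0)
          (Ideal.map (HilbChart87.tmap ψ) (HilbChart87.univIdeal v hx)))
        (hVB : (ofIdeals (c0.baseChange A) (IdealPair.ofChart0 (c0.baseChange A)
          (Ideal.map (HilbChart87.tmap ψ) (HilbChart87.univIdeal v hx)))).IsVB),
        Nonempty (QC2.Iso L.1 (ofDivisor (c0.baseChange A) (IdealPair.ofChart0 (c0.baseChange A)
          (Ideal.map (HilbChart87.tmap ψ) (HilbChart87.univIdeal v hx))) hVB)))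
    {A : Type u} [CommRing A] [Algebra k A] (ψ ψ' : HilbChart87.HV k x v →ₐ[k] A)
    {L₁ L₂ : (stdFam (B0 := B0) (B01 := B01) (e i₀) 1).Obj A}
    (h₁ : (stdFam (B0 := B0) (B01 := B01) (e i₀) 1).BC ψ U L₁)
    (h₂ : (stdFam (B0 := B0) (B01 := B01) (e i₀) 1).BC ψ' U L₂)
    (f : (stdFam (B0 := B0) (B01 := B01) (e i₀) 1).Iso L₁ L₂)
    (hL : fibreSet (stdFam (B0 := B0) (B01 := B01) (e i₀) 1)
      (fun {K} [Field K] [Algebra k K] L => wCore c0 e v L.1) L₁ = Set.univ) : ψ = ψ' := by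
  obtain ⟨f⟩ := f
  -- global vanishing
  have hv₁ : H1Vanish c0 e L₁.1 := by
    refine h1Vanish_of_fibres c0 e hc0 hInf.s_mem hinv (isVB_of_isLine L₁.2.1) (fun p => ?_)
    have hp : p ∈ fibreSet (stdFam (B0 := B0) (B01 := B01) (e i₀) 1)
        (fun {K} [Field K] [Algebra k K] L => wCore c0 e v L.1) L₁ := by
      rw [hL]
      trivial
    obtain ⟨Lp, hbc, hw⟩ := hp
    exact ⟨Lp.1, (bcRel_toAlgHom _ _).mp hbc, hw.1⟩
  have hv₂ : H1Vanish c0 e L₂.1 := H1Vanish.iso c0 e f hv₁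
  -- the two section ideals
  obtain ⟨h0, hVB, ⟨i₁⟩⟩ := hU ψ L₁ h₁
  obtain ⟨h0', hVB', ⟨i₂⟩⟩ := hU ψ' L₂ h₂
  have hm : Ideal.map (HilbChart87.tmap ψ) (HilbChart87.univIdeal v hx) ∈
      HilbChart87.HilbV k v A := by
    rw [← HilbChart87.homEquivHilb_apply]
    exact (HilbChart87.homEquivHilb v hx ψ).2
  have hm' : Ideal.map (HilbChart87.tmap ψ') (HilbChart87.univIdeal v hx) ∈
      HilbChart87.HilbV k v A := by
    rw [← HilbChart87.homEquivHilb_apply]
    exact (HilbChart87.homEquivHilb v hx ψ').2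
  have := HilbChart87.HilbV.finite hm
  have := HilbChart87.HilbV.finite hm'
  have e₁ := sectionIdeal_eq_of_iso_ofDivisor c0 e hc0 hInf i₀ hB0 hB1 L₁.1 L₁.2.1 L₁.2.2.1
    L₁.2.2.2 hv₁ _ h0 hVB i₁
  have e₂ := sectionIdeal_eq_of_iso_ofDivisor c0 e hc0 hInf i₀ hB0 hB1 L₂.1 L₂.2.1 L₂.2.2.1
    L₂.2.2.2 hv₂ _ h0' hVB' i₂
  have key : Ideal.map (HilbChart87.tmap ψ) (HilbChart87.univIdeal v hx) =
      Ideal.map (HilbChart87.tmap ψ') (HilbChart87.univIdeal v hx) := by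
    rw [← e₁, ← e₂]
    exact sectionIdeal_iso f
  apply (HilbChart87.homEquivHilb v hx).injective
  apply Subtype.ext
  rw [HilbChart87.homEquivHilb_apply, HilbChart87.homEquivHilb_apply]
  exact key

end Unique

end Fermat.Agent.Jac.Chart43
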