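/-
JAC brick R2a: the round trip `I0 ↦ O(Z(I0)) ↦ sectionIdeal = I0` (piece (S3) of helper76's split) and
the `unique` field of the core Hilbert chart for helper60's universal object `univObj`.
-/
import Fermat.Agent.Jac.Chart43.HilbCoreUnique
import Fermat.Agent.Jac.ConverseDiv60Tensor
import Fermat.Agent.Jac.ConverseDiv60Hilb

set_option autoImplicit false
set_option linter.unusedSectionVars false
set_option linter.style.haveILetI false

universe u

open TensorProduct

namespace Fermat.Agent.Jac.Chart43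

open scoped Fermat.Agent.Jac.BaseChange75
open Fermat.Agent.Jac.LineOps39 Fermat.Agent.Jac.AlgChart76 Fermat.Agent.Jac.BaseChange75
  Fermat.Agent.Jac.JSmooth85Alg Fermat.Agent.Jac.ConverseDiv60Props

section S3

variable {k : Type u} [Field k] {B0 B1 B01 : Type u} [CommRing B0] [CommRing B1] [CommRing B01]
  [Algebra k B0] [Algebra k B1] [Algebra k B01] [Algebra B0 B01] [Algebra B1 B01]
  [IsScalarTower k B0 B01] [IsScalarTower k B1 B01]
  (c0 : TwoChart k B0 B1 B01) {ιInf : Type} (e : ιInf → (B1 →ₐ[k] k))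

/-- **(S3)** the section ideal of `O(Z(I0))` is `I0` on the `W`-locus. -/
theorem sectionIdeal_divisorBundle_of_h1Vanish (hc0 : c0.FiniteProjOverLine)
    (hInf : InfData c0 e) (i₀ : ιInf)
    (hB0 : ∀ (K : Type u) [Field K] [Algebra k K], IsDomain (K ⊗[k] B0))
    (hB1 : ∀ (K : Type u) [Field K] [Algebra k K], IsDomain (K ⊗[k] B1))
    {A : Type u} [CommRing A] [Algebra k A] (I0 : Ideal (A ⊗[k] B0))
    [Module.Finite A ((A ⊗[k] B0) ⧸ I0)] [Module.Invertible (A ⊗[k] B0) I0]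
    (hχ : ∀ p : PrimeSpectrum A, (divisorBundle (c0.baseChange A) I0).chi p = 1)
    (hv : H1Vanish c0 e (divisorBundle (c0.baseChange A) I0)) :
    sectionIdeal (divisorBundle (c0.baseChange A) I0) = I0 :=
  sectionIdeal_eq_of_iso_ofDivisor c0 e hc0 hInf i₀ hB0 hB1 (divisorBundle (c0.baseChange A) I0)
    (isLine_divisorBundle (c0.baseChange A) I0)
    (ConverseDiv60Tensor.rigidifiable_divisorBundle c0 (e i₀) (hInf.s_mem i₀) I0) hχ hv I0
    inferInstance _ (isoRefl _)

end S3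

section UniqueUniv

variable {k : Type u} [Field k] [IsAlgClosed k] {B0 B1 B01 : Type u}
  [CommRing B0] [CommRing B1] [CommRing B01]
  [Algebra k B0] [Algebra k B1] [Algebra k B01] [Algebra B0 B01] [Algebra B1 B01]
  [IsScalarTower k B0 B01] [IsScalarTower k B1 B01]
  [Algebra.FiniteType k B0] [IsDedekindDomain B0]
  (c0 : TwoChart k B0 B1 B01) (hc : c0.FiniteProjOverLine) (ht : Transcendental k c0.t)
  {g : ℕ} (v : Fin g → B0) {ιInf : Type} (e : ιInf → (B1 →ₐ[k] k))

open ConverseDiv60Hilb in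
/-- **(HC-unique) for the universal object `univObj`** of helper60: exactly the field `unique` of
`FibrewiseChart (stdFam (e i₀) 1)` with `H = HV k x v`, `U = univObj`, `w = wCore c0 e v`. -/
theorem unique_univObj (hInf : InfData c0 e) (i₀ : ιInf)
    (hinv : ∀ i, Module.Invertible B1 (RingHom.ker (e i)))
    (hB0 : ∀ (K : Type u) [Field K] [Algebra k K], IsDomain (K ⊗[k] B0))
    (hB1 : ∀ (K : Type u) [Field K] [Algebra k K], IsDomain (K ⊗[k] B1))
    (hg : ChiBC36.chiUnit k B0 B1 B01 + g = 1)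
    {n : ℕ} (x : Fin n → B0) (hx : Algebra.adjoin k (Set.range x) = ⊤)
    {A : Type u} [CommRing A] [Algebra k A] (ψ ψ' : HilbChart87.HV k x v →ₐ[k] A)
    {L₁ L₂ : (stdFam (B0 := B0) (B01 := B01) (e i₀) 1).Obj A}
    (h₁ : (stdFam (B0 := B0) (B01 := B01) (e i₀) 1).BC ψ
      (univObj c0 hc ht v (e i₀) (hInf.s_mem i₀) hg x hx) L₁)
    (h₂ : (stdFam (B0 := B0) (B01 := B01) (e i₀) 1).BC ψ'
      (univObj c0 hc ht v (e i₀) (hInf.s_mem i₀) hg x hx) L₂)
    (f : (stdFam (B0 := B0) (B01 := B01) (e i₀) 1).Iso L₁ L₂)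
    (hL : fibreSet (stdFam (B0 := B0) (B01 := B01) (e i₀) 1)
      (fun {K} [Field K] [Algebra k K] L => wCore c0 e v L.1) L₁ = Set.univ) : ψ = ψ' := by
  refine hilbCore_unique c0 e hx v hc hInf i₀ hinv hB0 hB1
    (univObj c0 hc ht v (e i₀) (hInf.s_mem i₀) hg x hx) ?_ ψ ψ' h₁ h₂ f hL
  intro A' _ _ φ L hbc
  have hI := HilbChart87.HilbV.map_mem φ (HilbChart87.univIdeal_mem v hx)
  have hfin := finite_of_mem v hI
  have hinvI := invertible_of_mem c0 hc ht v hI
  have hiso := (stdFam (B0 := B0) (B01 := B01) (e i₀) 1).bc_unique hbc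
    (bc_univObj c0 hc ht v (e i₀) (hInf.s_mem i₀) hg x hx φ)
  obtain ⟨j⟩ := hiso
  exact ⟨hinvI, isVB_of_isLine (isLine_ofIdeals_ofChart0 (c0.baseChange A') _), ⟨j⟩⟩

end UniqueUniv

end Fermat.Agent.Jac.Chart43
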